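import Mathlib

/-!
# Item 80a: Case I of Fermat's Last Theorem for `p = 5, 7, 11, 13` (Sophie Germain)

If `q` is an auxiliary prime such that
* `x ^ p + y ^ p + z ^ p ≡ 0 mod q` implies `q ∣ x y z`, and
* `p` is not a `p`-th power modulo `q`,
then `a ^ p + b ^ p = c ^ p` has no solution with `p ∤ a b c` (Sophie Germain's theorem).
We use `q = 11, 29, 23, 53` for `p = 5, 7, 11, 13`.
-/

set_option autoImplicit false

open Finset

namespace Fermat.Agent.Kummer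

section sgPhi

variable {R S : Type*} [CommRing R] [CommRing S]

/-- `φ(u, v) = (u ^ n + v ^ n) / (u + v)` for odd `n` -/
def sgPhi (n : ℕ) (u v : R) : R := ∑ i ∈ range n, u ^ i * (-v) ^ (n - 1 - i)

theorem sgPhi_mul {n : ℕ} (hn : Odd n) (u v : R) : sgPhi n u v * (u + v) = u ^ n + v ^ n := by
  have := geom_sum₂_mul u (-v) n
  rw [sub_neg_eq_add, hn.neg_pow, sub_neg_eq_add] at this
  exact this

theorem sgPhi_neg_self (n : ℕ) (u : R) : sgPhi n u (-u) = n * u ^ (n - 1) := by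
  unfold sgPhi
  rw [neg_neg, geom_sum₂_self]

theorem sgPhi_zero_left {n : ℕ} (hn : Odd n) (v : R) : sgPhi n 0 v = v ^ (n - 1) := by
  unfold sgPhi
  have hpos : 0 < n := hn.pos
  rw [Finset.sum_eq_single_of_mem 0 (Finset.mem_range.mpr hpos)]
  · rw [pow_zero, one_mul, Nat.sub_zero]
    have heven : Even (n - 1) := by
      obtain ⟨k, rfl⟩ := hn
      simp
    exact heven.neg_pow v
  · intro i _ hi
    rw [zero_pow hi, zero_mul]

theorem map_sgPhi (f : R →+* S) (n : ℕ) (u v : R) : f (sgPhi n u v) = sgPhi n (f u) (f v) := by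
  unfold sgPhi
  simp [map_sum]

end sgPhi

/-- coprime integers are not both divisible by a prime `q` -/
theorem not_both_zero_of_isCoprime {q : ℕ} [Fact q.Prime] {x y : ℤ} (h : IsCoprime x y)
    (hx : (x : ZMod q) = 0) (hy : (y : ZMod q) = 0) : False := by
  obtain ⟨u, v, huv⟩ := h
  have := congrArg (Int.cast : ℤ → ZMod q) huv
  push_cast at this
  rw [hx, hy, mul_zero, mul_zero, add_zero] at this
  exact zero_ne_one this

/-- the two factors `y + z` and `(y ^ p + z ^ p) / (y + z)` of `(-x) ^ p` are `p`-th powers -/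
theorem sg_exists_pow {p : ℕ} (hp : p.Prime) (hodd : Odd p) {x y z : ℤ} (hyz : IsCoprime y z)
    (h : x ^ p + y ^ p + z ^ p = 0) (hpx : ¬ (p : ℤ) ∣ x) :
    ∃ a α : ℤ, y + z = a ^ p ∧ sgPhi p y z = α ^ p := by
  have hmul : sgPhi p y z * (y + z) = (-x) ^ p := by
    rw [sgPhi_mul hodd, hodd.neg_pow]
    linarith
  have hx0 : x ≠ 0 := fun h0 => hpx (h0 ▸ dvd_zero _)
  have hcop : IsCoprime (sgPhi p y z) (y + z) := by
    apply isCoprime_of_prime_dvd
    · rintro ⟨-, h2⟩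
      rw [h2, mul_zero] at hmul
      exact hx0 (neg_eq_zero.mp (pow_eq_zero_iff hp.ne_zero |>.mp hmul.symm))
    · intro r hr hr1 hr2
      -- modulo `r`: `z = -y`, so `φ = p y^(p-1)`
      let f : ℤ →+* ℤ ⧸ Ideal.span {r} := Ideal.Quotient.mk _
      have hf : ∀ n : ℤ, f n = 0 ↔ r ∣ n := fun n => by
        rw [Ideal.Quotient.eq_zero_iff_mem, Ideal.mem_span_singleton]
      have h1 : f z = - f y := by
        have := (hf _).mpr hr2
        rw [map_add] at this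
        exact (neg_eq_of_add_eq_zero_right this).symm ▸ rfl
      have h2 : f (sgPhi p y z) = f ((p : ℤ) * y ^ (p - 1)) := by
        rw [map_sgPhi, h1, sgPhi_neg_self]
        simp
      have h3 : r ∣ (p : ℤ) * y ^ (p - 1) := by
        rw [← hf, ← h2, hf]
        exact hr1
      rcases hr.dvd_or_dvd h3 with h4 | h4
      · -- `r ∣ p`, so `p ∣ y + z ∣ x ^ p`
        have hpp : Prime (p : ℤ) := Nat.prime_iff_prime_int.mp hp
        have h5 : (p : ℤ) ∣ r := hr.irreducible.dvd_symm hpp.irreducible h4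
        have h6 : (p : ℤ) ∣ (-x) ^ p := by
          rw [← hmul]
          exact Dvd.dvd.mul_left (h5.trans hr2) _
        exact hpx ((dvd_neg.mp (hpp.dvd_of_dvd_pow h6)))
      · have h5 : r ∣ y := hr.dvd_of_dvd_pow h4
        have h6 : r ∣ z := by
          have := dvd_sub hr2 h5
          simpa using this
        exact hr.not_isUnit (hyz.isUnit_of_dvd' h5 h6)
  obtain ⟨⟨α, hα⟩, ⟨a, ha⟩⟩ := Int.eq_pow_of_mul_eq_pow_odd hcop hodd hmul
  exact ⟨a, α, ha, hα⟩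

/-- the core of Sophie Germain's theorem: the auxiliary prime `q` cannot divide `x` -/
theorem sg_core {p q : ℕ} (hp : p.Prime) (hodd : Odd p) [Fact q.Prime]
    (H1 : ∀ x y z : ZMod q, x ^ p + y ^ p + z ^ p = 0 → x = 0 ∨ y = 0 ∨ z = 0)
    (H2 : ∀ t : ZMod q, t ^ p ≠ (p : ZMod q))
    {x y z : ℤ} (hxy : IsCoprime x y) (hyz : IsCoprime y z) (hzx : IsCoprime z x)
    (h : x ^ p + y ^ p + z ^ p = 0) (hpx : ¬ (p : ℤ) ∣ x) (hpy : ¬ (p : ℤ) ∣ y)
    (hpz : ¬ (p : ℤ) ∣ z) (hqx : (x : ZMod q) = 0) : False := by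
  obtain ⟨a, α, ha, hα⟩ := sg_exists_pow hp hodd hyz h hpx
  obtain ⟨b, β, hb, -⟩ := sg_exists_pow hp hodd hzx (show y ^ p + z ^ p + x ^ p = 0 by linarith) hpy
  obtain ⟨c, γ, hc, hγ⟩ := sg_exists_pow hp hodd hxy (show z ^ p + x ^ p + y ^ p = 0 by linarith) hpz
  have ha' : (y : ZMod q) + z = (a : ZMod q) ^ p := by exact_mod_cast congrArg (Int.cast : ℤ → ZMod q) ha
  have hb' : (z : ZMod q) + x = (b : ZMod q) ^ p := by exact_mod_cast congrArg (Int.cast : ℤ → ZMod q) hb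
  have hc' : (x : ZMod q) + y = (c : ZMod q) ^ p := by exact_mod_cast congrArg (Int.cast : ℤ → ZMod q) hc
  have hα' : sgPhi p (y : ZMod q) (z : ZMod q) = (α : ZMod q) ^ p := by
    have := congrArg (Int.castRingHom (ZMod q)) hα
    rw [map_sgPhi, map_pow] at this
    exact this
  have hγ' : sgPhi p (x : ZMod q) (y : ZMod q) = (γ : ZMod q) ^ p := by
    have := congrArg (Int.castRingHom (ZMod q)) hγ
    rw [map_sgPhi, map_pow] at this
    exact this
  have hsum : (c : ZMod q) ^ p + (b : ZMod q) ^ p + (-(a : ZMod q)) ^ p = 0 := by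
    rw [hodd.neg_pow, ← ha', ← hb', ← hc', hqx]
    ring
  rcases H1 _ _ _ hsum with h0 | h0 | h0
  · -- `q ∣ c`, so `q ∣ y`
    rw [h0, zero_pow hp.ne_zero, hqx, zero_add] at hc'
    exact not_both_zero_of_isCoprime hxy hqx hc'
  · rw [h0, zero_pow hp.ne_zero, hqx, add_zero] at hb'
    exact not_both_zero_of_isCoprime hzx hb' hqx
  · rw [neg_eq_zero] at h0
    rw [h0, zero_pow hp.ne_zero] at ha'
    have hz : (z : ZMod q) = -(y : ZMod q) := (neg_eq_of_add_eq_zero_right ha').symm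
    have hy0 : (y : ZMod q) ≠ 0 := fun hy => not_both_zero_of_isCoprime hxy hqx hy
    rw [hz, sgPhi_neg_self] at hα'
    rw [hqx, sgPhi_zero_left hodd] at hγ'
    have hγ0 : (γ : ZMod q) ≠ 0 := by
      intro h1
      rw [h1, zero_pow hp.ne_zero] at hγ'
      exact hy0 (pow_eq_zero_iff (Nat.sub_ne_zero_of_lt hp.one_lt) |>.mp hγ')
    apply H2 ((α : ZMod q) * (γ : ZMod q)⁻¹)
    rw [mul_pow, inv_pow, ← hα', ← hγ']
    have : (y : ZMod q) ^ (p - 1) ≠ 0 := pow_ne_zero _ hy0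
    field_simp

/-- **Sophie Germain's theorem.** -/
theorem sophieGermain {p q : ℕ} (hp : p.Prime) (hodd : Odd p) [Fact q.Prime]
    (H1 : ∀ x y z : ZMod q, x ^ p + y ^ p + z ^ p = 0 → x = 0 ∨ y = 0 ∨ z = 0)
    (H2 : ∀ t : ZMod q, t ^ p ≠ (p : ZMod q))
    {a b c : ℤ} (hab : IsCoprime a b) (h : ¬ (p : ℤ) ∣ a * b * c) : a ^ p + b ^ p ≠ c ^ p := by
  intro heq
  have hpa : ¬ (p : ℤ) ∣ a := fun h1 => h ((h1.mul_right b).mul_right c)
  have hpb : ¬ (p : ℤ) ∣ b := fun h1 => h ((h1.mul_left a).mul_right c)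
  have hpc : ¬ (p : ℤ) ∣ -c := fun h1 => h ((dvd_neg.mp h1).mul_left (a * b))
  have h0 : a ^ p + b ^ p + (-c) ^ p = 0 := by
    rw [hodd.neg_pow, heq]
    ring
  have hpos : 0 < p := hp.pos
  -- pairwise coprimality
  have hbc : IsCoprime b (-c) := by
    rw [IsCoprime.neg_right_iff]
    have h1 : IsCoprime b (c ^ p) := by
      rw [← heq]
      have h2 : IsCoprime b (a ^ p) := hab.symm.pow_right
      have h3 : IsCoprime b (a ^ p + b * b ^ (p - 1)) := h2.add_mul_left_right _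
      rwa [mul_pow_sub_one hp.ne_zero] at h3
    exact (IsCoprime.pow_right_iff hpos).mp h1
  have hca : IsCoprime (-c) a := by
    rw [IsCoprime.neg_left_iff]
    have h1 : IsCoprime a (c ^ p) := by
      rw [← heq]
      have h2 : IsCoprime a (b ^ p) := hab.pow_right
      have h3 : IsCoprime a (b ^ p + a * a ^ (p - 1)) := h2.add_mul_left_right _
      rwa [mul_pow_sub_one hp.ne_zero, add_comm] at h3
    exact ((IsCoprime.pow_right_iff hpos).mp h1).symm
  have hq : (a : ZMod q) ^ p + (b : ZMod q) ^ p + ((-c : ℤ) : ZMod q) ^ p = 0 := by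
    exact_mod_cast congrArg (Int.cast : ℤ → ZMod q) h0
  rcases H1 _ _ _ hq with hx | hy | hz
  · exact sg_core hp hodd H1 H2 hab hbc hca h0 hpa hpb hpc hx
  · exact sg_core hp hodd H1 H2 hbc hca hab (by linarith) hpb hpc hpa hy
  · exact sg_core hp hodd H1 H2 hca hab hbc (by linarith) hpc hpa hpb hz


/-! ### The finite checks -/

section checks

theorem fact_prime_11 : Fact (Nat.Prime 11) := ⟨by norm_num⟩
theorem fact_prime_23 : Fact (Nat.Prime 23) := ⟨by norm_num⟩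
theorem fact_prime_29 : Fact (Nat.Prime 29) := ⟨by norm_num⟩
theorem fact_prime_53 : Fact (Nat.Prime 53) := ⟨by norm_num⟩

theorem pow5_mod11 : ∀ x : ZMod 11, x ^ 5 = 0 ∨ x ^ 5 = 1 ∨ x ^ 5 = -1 := by decide

theorem pow11_mod23 : ∀ x : ZMod 23, x ^ 11 = 0 ∨ x ^ 11 = 1 ∨ x ^ 11 = -1 := by decide

theorem pow7_mod29 : ∀ x : ZMod 29,
    x ^ 7 = 0 ∨ x ^ 7 = 1 ∨ x ^ 7 = -1 ∨ x ^ 7 = 12 ∨ x ^ 7 = 17 := by decide

theorem pow13_mod53 : ∀ x : ZMod 53,
    x ^ 13 = 0 ∨ x ^ 13 = 1 ∨ x ^ 13 = -1 ∨ x ^ 13 = 23 ∨ x ^ 13 = 30 := by decide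

theorem sgH1_5 : ∀ x y z : ZMod 11, x ^ 5 + y ^ 5 + z ^ 5 = 0 → x = 0 ∨ y = 0 ∨ z = 0 := by
  have := fact_prime_11
  intro x y z h
  by_contra hne
  simp only [not_or] at hne
  obtain ⟨hx, hy, hz⟩ := hne
  have hx' : x ^ 5 ≠ 0 := pow_ne_zero _ hx
  have hy' : y ^ 5 ≠ 0 := pow_ne_zero _ hy
  have hz' : z ^ 5 ≠ 0 := pow_ne_zero _ hz
  rcases pow5_mod11 x with h1 | h1 | h1 <;> rcases pow5_mod11 y with h2 | h2 | h2 <;>
    rcases pow5_mod11 z with h3 | h3 | h3 <;> first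
    | exact hx' h1 | exact hy' h2 | exact hz' h3
    | (rw [h1, h2, h3] at h; revert h; decide)

theorem sgH2_5 : ∀ t : ZMod 11, t ^ 5 ≠ ((5 : ℕ) : ZMod 11) := by decide

theorem sgH1_11 : ∀ x y z : ZMod 23, x ^ 11 + y ^ 11 + z ^ 11 = 0 → x = 0 ∨ y = 0 ∨ z = 0 := by
  have := fact_prime_23
  intro x y z h
  by_contra hne
  simp only [not_or] at hne
  obtain ⟨hx, hy, hz⟩ := hne
  have hx' : x ^ 11 ≠ 0 := pow_ne_zero _ hx
  have hy' : y ^ 11 ≠ 0 := pow_ne_zero _ hy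
  have hz' : z ^ 11 ≠ 0 := pow_ne_zero _ hz
  rcases pow11_mod23 x with h1 | h1 | h1 <;> rcases pow11_mod23 y with h2 | h2 | h2 <;>
    rcases pow11_mod23 z with h3 | h3 | h3 <;> first
    | exact hx' h1 | exact hy' h2 | exact hz' h3
    | (rw [h1, h2, h3] at h; revert h; decide)

theorem sgH2_11 : ∀ t : ZMod 23, t ^ 11 ≠ ((11 : ℕ) : ZMod 23) := by decide

theorem sgH1_7 : ∀ x y z : ZMod 29, x ^ 7 + y ^ 7 + z ^ 7 = 0 → x = 0 ∨ y = 0 ∨ z = 0 := by
  have := fact_prime_29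
  intro x y z h
  by_contra hne
  simp only [not_or] at hne
  obtain ⟨hx, hy, hz⟩ := hne
  have hx' : x ^ 7 ≠ 0 := pow_ne_zero _ hx
  have hy' : y ^ 7 ≠ 0 := pow_ne_zero _ hy
  have hz' : z ^ 7 ≠ 0 := pow_ne_zero _ hz
  rcases pow7_mod29 x with h1 | h1 | h1 | h1 | h1 <;>
    rcases pow7_mod29 y with h2 | h2 | h2 | h2 | h2 <;>
    rcases pow7_mod29 z with h3 | h3 | h3 | h3 | h3 <;> first
    | exact hx' h1 | exact hy' h2 | exact hz' h3
    | (rw [h1, h2, h3] at h; revert h; decide)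

theorem sgH2_7 : ∀ t : ZMod 29, t ^ 7 ≠ ((7 : ℕ) : ZMod 29) := by decide

theorem sgH1_13 : ∀ x y z : ZMod 53, x ^ 13 + y ^ 13 + z ^ 13 = 0 → x = 0 ∨ y = 0 ∨ z = 0 := by
  have := fact_prime_53
  intro x y z h
  by_contra hne
  simp only [not_or] at hne
  obtain ⟨hx, hy, hz⟩ := hne
  have hx' : x ^ 13 ≠ 0 := pow_ne_zero _ hx
  have hy' : y ^ 13 ≠ 0 := pow_ne_zero _ hy
  have hz' : z ^ 13 ≠ 0 := pow_ne_zero _ hz
  rcases pow13_mod53 x with h1 | h1 | h1 | h1 | h1 <;>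
    rcases pow13_mod53 y with h2 | h2 | h2 | h2 | h2 <;>
    rcases pow13_mod53 z with h3 | h3 | h3 | h3 | h3 <;> first
    | exact hx' h1 | exact hy' h2 | exact hz' h3
    | (rw [h1, h2, h3] at h; revert h; decide)

theorem sgH2_13 : ∀ t : ZMod 53, t ^ 13 ≠ ((13 : ℕ) : ZMod 53) := by decide

end checks

/-- **80a, CASE I** of Fermat's Last Theorem for the exponents `5, 7, 11, 13`. -/
theorem caseI (p : ℕ) (hp : p = 5 ∨ p = 7 ∨ p = 11 ∨ p = 13) (a b c : ℤ) (hab : IsCoprime a b)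
    (h : ¬ (p : ℤ) ∣ a * b * c) : a ^ p + b ^ p ≠ c ^ p := by
  rcases hp with rfl | rfl | rfl | rfl
  · haveI := fact_prime_11
    exact sophieGermain (q := 11) (by norm_num) (by decide) sgH1_5 sgH2_5 hab h
  · haveI := fact_prime_29
    exact sophieGermain (q := 29) (by norm_num) (by decide) sgH1_7 sgH2_7 hab h
  · haveI := fact_prime_23
    exact sophieGermain (q := 23) (by norm_num) (by decide) sgH1_11 sgH2_11 hab h
  · haveI := fact_prime_53
    exact sophieGermain (q := 53) (by norm_num) (by decide) sgH1_13 sgH2_13 hab h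

end Fermat.Agent.Kummer
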