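import Mathlib

/-!
# Item 80 (Kummer): common definitions

FLT for the exponents `p = 5, 7, 11, 13` (Kummer's theorem for `ℤ[ζ_p]` a PID) makes the
statements S10 and S11 vacuous.  This file contains the shared contract `KummerLemma`.
-/

set_option autoImplicit false

open NumberField

namespace Fermat.Agent.Kummer

/-- **Kummer's lemma** for `p` and a number field `K` (used with `K` the `p`-th cyclotomic field):
a unit of `𝓞 K` which is congruent to a rational integer modulo `p` is a `p`-th power. -/
def KummerLemma (p : ℕ) (K : Type*) [Field K] [NumberField K] : Prop :=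
  ∀ (u : (𝓞 K)ˣ) (a : ℤ), (p : 𝓞 K) ∣ (u : 𝓞 K) - (a : 𝓞 K) → ∃ v : (𝓞 K)ˣ, u = v ^ p

end Fermat.Agent.Kummer
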