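import Mathlib
import Fermat.Agent.Kummer.Defs

/-!
# Item 80c (Case II of Kummer's theorem): shared definitions

`GenSol hζ m`  : a solution of the generalised equation `x ^ p + y ^ p = ε * (λ ^ m * z) ^ p`
in `𝓞 K` (`λ = ζ - 1`), `x, y` coprime, `λ ∤ y`, `λ ∤ z`.
`GenSol' hζ m` : the same, normalised so that `λ ^ 2 ∣ x + y`.
-/

set_option autoImplicit false

open NumberField

namespace Fermat.Agent.Kummer

variable {p : ℕ} [hp : Fact p.Prime] {K : Type*} [Field K] [NumberField K]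
  [IsCyclotomicExtension {p} ℚ K] {ζ : K}

/-- A solution of the generalised Fermat equation `x ^ p + y ^ p = ε * (λ ^ m * z) ^ p`. -/
def GenSol (hζ : IsPrimitiveRoot ζ p) (m : ℕ) : Prop :=
  ∃ (x y z : 𝓞 K) (ε : (𝓞 K)ˣ), IsCoprime x y ∧ ¬ (hζ.toInteger - 1) ∣ y ∧
    ¬ (hζ.toInteger - 1) ∣ z ∧ x ^ p + y ^ p = ε * ((hζ.toInteger - 1) ^ m * z) ^ p

/-- A normalised solution: moreover `λ ^ 2 ∣ x + y`. -/
def GenSol' (hζ : IsPrimitiveRoot ζ p) (m : ℕ) : Prop :=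
  ∃ (x y z : 𝓞 K) (ε : (𝓞 K)ˣ), IsCoprime x y ∧ ¬ (hζ.toInteger - 1) ∣ y ∧
    ¬ (hζ.toInteger - 1) ∣ z ∧ x ^ p + y ^ p = ε * ((hζ.toInteger - 1) ^ m * z) ^ p ∧
    (hζ.toInteger - 1) ^ 2 ∣ x + y

/-- Frobenius: every `p`-th power in `𝓞 K` is congruent to a rational integer modulo `p`. -/
def FrobInt (p : ℕ) (K : Type*) [Field K] [NumberField K] : Prop :=
  ∀ ρ : 𝓞 K, ∃ n : ℤ, (p : 𝓞 K) ∣ ρ ^ p - (n : 𝓞 K)

end Fermat.Agent.Kummer
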