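import Mathlib
import Fermat.Agent.Kummer.CaseIIDefs

/-!
# Item 80c: the descent step of Case II (Kummer), under PID + Kummer's lemma
-/

set_option autoImplicit false

open NumberField Polynomial

namespace Fermat.Agent.Kummer

section abstract

variable {R : Type*} [CommRing R] [IsDomain R]

/-- If `x + η₁ y = l g₁`, `x + η₂ y = l g₂` with `η₁ - η₂` associated to `l` and `x, y` coprime,
then `g₁, g₂` are coprime. -/
lemma isCoprime_quot {l x y η₁ η₂ g₁ g₂ : R} (hl0 : l ≠ 0) (h : Associated l (η₁ - η₂))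
    (hxy : IsCoprime x y) (h₁ : x + η₁ * y = l * g₁) (h₂ : x + η₂ * y = l * g₂) :
    IsCoprime g₁ g₂ := by
  obtain ⟨u, hu⟩ := h
  obtain ⟨a, b, hab⟩ := hxy
  have e1 : g₁ - g₂ = u * y := by
    apply mul_left_cancel₀ hl0
    have : l * (g₁ - g₂) = (η₁ - η₂) * y := by rw [mul_sub, ← h₁, ← h₂]; ring
    rw [this, ← hu]; ring
  have e2 : η₂ * g₁ - η₁ * g₂ = - (u * x) := by
    apply mul_left_cancel₀ hl0
    have : l * (η₂ * g₁ - η₁ * g₂) = - ((η₁ - η₂) * x) := by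
      have : l * (η₂ * g₁ - η₁ * g₂) = η₂ * (l * g₁) - η₁ * (l * g₂) := by ring
      rw [this, ← h₁, ← h₂]; ring
    rw [this, ← hu]; ring
  refine ⟨(-a * η₂ + b) * (↑u⁻¹ : R), (a * η₁ - b) * (↑u⁻¹ : R), ?_⟩
  have : (-a * η₂ + b) * (↑u⁻¹ : R) * g₁ + (a * η₁ - b) * (↑u⁻¹ : R) * g₂
      = (↑u⁻¹ : R) * (-a * (η₂ * g₁ - η₁ * g₂) + b * (g₁ - g₂)) := by ring
  rw [this, e1, e2]
  have : (↑u⁻¹ : R) * (-a * -(↑u * x) + b * (↑u * y)) = ((↑u⁻¹ : R) * ↑u) * (a * x + b * y) := by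
    ring
  rw [this, hab, Units.inv_mul, one_mul]

/-- `l ∤ g₁` if `l ∣ g₂`, `l ∤ y`. -/
lemma not_dvd_quot {l x y η₁ η₂ g₁ g₂ : R} (hl : Prime l) (h : Associated l (η₁ - η₂))
    (hy : ¬ l ∣ y) (h₁ : x + η₁ * y = l * g₁) (h₂ : x + η₂ * y = l * g₂) (hg₂ : l ∣ g₂) :
    ¬ l ∣ g₁ := by
  obtain ⟨u, hu⟩ := h
  have e1 : g₁ - g₂ = u * y := by
    apply mul_left_cancel₀ hl.ne_zero
    have : l * (g₁ - g₂) = (η₁ - η₂) * y := by rw [mul_sub, ← h₁, ← h₂]; ring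
    rw [this, ← hu]; ring
  intro hg₁
  have : l ∣ (u : R) * y := e1 ▸ dvd_sub hg₁ hg₂
  rcases hl.dvd_or_dvd this with h' | h'
  · exact hl.not_isUnit (isUnit_of_dvd_unit h' u.isUnit)
  · exact hy h'

/-- The abstract descent data: factorisation of `x + y`, `x + ζ y`, `x + ζ⁻¹ y`. -/
theorem descent_abstract [IsPrincipalIdealRing R] {p : ℕ} (hp : p.Prime) (hp2 : p ≠ 2) {ζ : R}
    (hζ : IsPrimitiveRoot ζ p) (hl : Prime (ζ - 1)) {x y z : R} {ε : Rˣ} {m : ℕ} (hm : 1 ≤ m)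
    (hxy : IsCoprime x y) (hy : ¬ (ζ - 1) ∣ y) (hz : ¬ (ζ - 1) ∣ z)
    (heq : x ^ p + y ^ p = ε * ((ζ - 1) ^ m * z) ^ p) (hsq : (ζ - 1) ^ 2 ∣ x + y) :
    2 ≤ m ∧ ∃ (ρ₀ ρ₁ ρ₂ : R) (η₀ η₁ η₂ : Rˣ), ¬ (ζ - 1) ∣ ρ₀ ∧ ¬ (ζ - 1) ∣ ρ₁ ∧
      ¬ (ζ - 1) ∣ ρ₂ ∧ IsCoprime ρ₁ ρ₂ ∧
      x + y = (ζ - 1) * (η₀ * ((ζ - 1) ^ (m - 1) * ρ₀) ^ p) ∧
      x + ζ * y = (ζ - 1) * (η₁ * ρ₁ ^ p) ∧
      x + ζ ^ (p - 1) * y = (ζ - 1) * (η₂ * ρ₂ ^ p) := by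
  classical
  have hp0 : 0 < p := hp.pos
  have hp3 : 3 ≤ p := by
    have := hp.two_le
    omega
  have hodd : Odd p := hp.odd_of_ne_two hp2
  set l : R := ζ - 1 with hl_def
  have hl0 : l ≠ 0 := hl.ne_zero
  set μ : Finset R := nthRootsFinset p (1 : R) with hμ
  have hmem : ∀ η : R, η ∈ μ ↔ η ^ p = 1 := fun η => mem_nthRootsFinset hp0 1
  have h1μ : (1 : R) ∈ μ := (hmem 1).2 (one_pow p)
  have hζμ : ζ ∈ μ := (hmem ζ).2 hζ.pow_eq_one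
  have hζ'μ : ζ ^ (p - 1) ∈ μ := (hmem _).2 (by rw [← pow_mul, mul_comm, pow_mul, hζ.pow_eq_one, one_pow])
  have hζ1 : ζ ≠ 1 := hζ.ne_one (by omega)
  have hζ'1 : ζ ^ (p - 1) ≠ 1 := hζ.pow_ne_one_of_pos_of_lt (by omega) (by omega)
  have hζζ' : ζ ≠ ζ ^ (p - 1) := by
    intro h
    have h2 : ζ ^ (p - 2) = 1 := by
      have : ζ * ζ ^ (p - 2) = ζ * 1 := by
        rw [← pow_succ', mul_one]
        have : p - 2 + 1 = p - 1 := by omega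
        rw [this]; exact h.symm
      exact mul_left_cancel₀ (hζ.ne_zero (by omega)) this
    exact hζ.pow_ne_one_of_pos_of_lt (by omega) (by omega) h2
  have hassoc : ∀ η₁ ∈ μ, ∀ η₂ ∈ μ, η₁ ≠ η₂ → Associated l (η₁ - η₂) := fun η₁ h₁ η₂ h₂ h =>
    hζ.nthRootsFinset_pairwise_associated_sub_one_sub_of_prime hp h₁ h₂ h
  have hldvd : l ∣ x + y := dvd_trans (dvd_pow_self l two_ne_zero) hsq
  have hdvd : ∀ η ∈ μ, l ∣ x + η * y := by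
    intro η hη
    have h1 : l ∣ η - 1 := hζ.sub_one_dvd_sub hp hη h1μ
    have : x + η * y = (x + y) + (η - 1) * y := by ring
    rw [this]
    exact dvd_add hldvd (Dvd.dvd.mul_right h1 y)
  have hg : ∀ η : R, ∃ g : R, η ∈ μ → x + η * y = l * g := by
    intro η
    by_cases hη : η ∈ μ
    · obtain ⟨g, hg⟩ := hdvd η hη
      exact ⟨g, fun _ => hg⟩
    · exact ⟨0, fun h => absurd h hη⟩
  choose g hg using hg
  -- the product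
  have hprod : ∏ η ∈ μ, g η = ε * ((l ^ (m - 1) * z) ^ p) := by
    have h1 : x ^ p + y ^ p = ∏ η ∈ μ, (x + η * y) := hζ.pow_add_pow_eq_prod_add_mul x y hodd
    have h2 : ∏ η ∈ μ, (x + η * y) = l ^ p * ∏ η ∈ μ, g η := by
      rw [Finset.prod_congr rfl (fun η hη => hg η hη), Finset.prod_mul_distrib, Finset.prod_const,
        hμ, hζ.card_nthRootsFinset]
    have h3 : l ^ p * ∏ η ∈ μ, g η = l ^ p * (ε * ((l ^ (m - 1) * z) ^ p)) := by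
      rw [← h2, ← h1, heq]
      have hm' : l ^ m = l ^ (m - 1) * l := by
        rw [← pow_succ]
        congr 1
        omega
      rw [hm']
      ring_nf
    exact mul_left_cancel₀ (pow_ne_zero p hl0) h3
  -- pairwise coprimality
  have hcop : ∀ η₁ ∈ μ, ∀ η₂ ∈ μ, η₁ ≠ η₂ → IsCoprime (g η₁) (g η₂) := fun η₁ h₁ η₂ h₂ h =>
    isCoprime_quot hl0 (hassoc η₁ h₁ η₂ h₂ h) hxy (hg η₁ h₁) (hg η₂ h₂)
  have hg1 : l ∣ g 1 := by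
    obtain ⟨c, hc⟩ := hsq
    refine ⟨c, ?_⟩
    apply mul_left_cancel₀ hl0
    rw [← hg 1 h1μ, one_mul, hc]; ring
  have hndvd : ∀ η ∈ μ, η ≠ 1 → ¬ l ∣ g η := fun η hη h =>
    not_dvd_quot hl (hassoc η hη 1 h1μ h) hy (hg η hη) (hg 1 h1μ) hg1
  -- p-th powers for η ≠ 1
  have hpow : ∀ η ∈ μ, η ≠ 1 → ∃ (ρ : R) (u : Rˣ), ¬ l ∣ ρ ∧ g η = u * ρ ^ p := by
    intro η hη h
    have e : g η * ∏ η' ∈ μ.erase η, g η' = ε * ((l ^ (m - 1) * z) ^ p) := by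
      rw [Finset.mul_prod_erase μ g hη, hprod]
    have hc : IsCoprime (g η) (∏ η' ∈ μ.erase η, g η') :=
      IsCoprime.prod_right fun η' hη' =>
        hcop η hη η' (Finset.mem_of_mem_erase hη') (Finset.ne_of_mem_erase hη').symm
    have ha : Associated ((l ^ (m - 1) * z) ^ p) (g η * ∏ η' ∈ μ.erase η, g η') := by
      rw [e]
      exact ⟨ε, by ring⟩
    obtain ⟨ρ, u, hu⟩ := exists_associated_pow_of_associated_pow_mul hc ha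
    refine ⟨ρ, u, fun hρ => hndvd η hη h ?_, by rw [← hu]; ring⟩
    rw [← hu]
    exact Dvd.dvd.mul_right (dvd_pow hρ hp.ne_zero) _
  -- the factor η = 1
  set G : R := ∏ η' ∈ μ.erase 1, g η' with hG
  have e1 : g 1 * G = l ^ ((m - 1) * p) * (ε * z ^ p) := by
    rw [hG, Finset.mul_prod_erase μ g h1μ, hprod]; ring
  have hGl : ¬ l ∣ G := by
    rw [hG, hl.dvd_finsetProd_iff]
    rintro ⟨η, hη, h⟩
    exact hndvd η (Finset.mem_of_mem_erase hη) (Finset.ne_of_mem_erase hη) h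
  obtain ⟨x₀, hx₀⟩ : l ^ ((m - 1) * p) ∣ g 1 :=
    hl.pow_dvd_of_dvd_mul_right _ hGl (e1 ▸ Dvd.intro _ rfl)
  have e2 : x₀ * G = ε * z ^ p := by
    apply mul_left_cancel₀ (pow_ne_zero ((m - 1) * p) hl0)
    rw [← e1, hx₀]; ring
  have hx₀l : ¬ l ∣ x₀ := by
    intro h
    have : l ∣ (ε : R) * z ^ p := e2 ▸ Dvd.dvd.mul_right h G
    rcases hl.dvd_or_dvd this with h' | h'
    · exact hl.not_isUnit (isUnit_of_dvd_unit h' ε.isUnit)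
    · exact hz (hl.dvd_of_dvd_pow h')
  have hm2 : 2 ≤ m := by
    by_contra hcon
    have hm1 : m = 1 := by omega
    rw [hm1] at hx₀
    simp only [le_refl, tsub_eq_zero_of_le, zero_mul, pow_zero, one_mul] at hx₀
    exact hx₀l (hx₀ ▸ hg1)
  have hc0 : IsCoprime x₀ G := by
    have : IsCoprime (g 1) G := IsCoprime.prod_right fun η' hη' =>
        hcop 1 h1μ η' (Finset.mem_of_mem_erase hη') (Finset.ne_of_mem_erase hη').symm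
    rw [hx₀] at this
    exact this.of_mul_left_right
  obtain ⟨ρ₀, η₀, hρ₀⟩ := exists_associated_pow_of_associated_pow_mul hc0
    (show Associated (z ^ p) (x₀ * G) from e2 ▸ ⟨ε, by ring⟩)
  have hρ₀l : ¬ l ∣ ρ₀ := fun h => hx₀l (hρ₀ ▸ Dvd.dvd.mul_right (dvd_pow h hp.ne_zero) _)
  obtain ⟨ρ₁, η₁, hρ₁l, hρ₁⟩ := hpow ζ hζμ hζ1
  obtain ⟨ρ₂, η₂, hρ₂l, hρ₂⟩ := hpow _ hζ'μ hζ'1
  refine ⟨hm2, ρ₀, ρ₁, ρ₂, η₀, η₁, η₂, hρ₀l, hρ₁l, hρ₂l, ?_, ?_, ?_, ?_⟩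
  · have h := hcop ζ hζμ _ hζ'μ hζζ'
    rw [hρ₁, hρ₂] at h
    exact (IsCoprime.pow_left_iff hp0).1 ((IsCoprime.pow_right_iff hp0).1
      (h.of_mul_left_right.of_mul_right_right))
  · have := hg 1 h1μ
    rw [one_mul] at this
    rw [this, hx₀, ← hρ₀]; ring
  · rw [hg ζ hζμ, hρ₁]
  · rw [hg _ hζ'μ, hρ₂]

end abstract

section descent

variable {p : ℕ} [hp : Fact p.Prime] {K : Type*} [Field K] [NumberField K]
  [IsCyclotomicExtension {p} ℚ K] {ζ : K}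

/-- A3 + A4: the descent step. -/
theorem genSol_descent (hp5 : 5 ≤ p) (hζ : IsPrimitiveRoot ζ p)
    (hpid : IsPrincipalIdealRing (𝓞 K)) (hkum : KummerLemma p K) (hfrob : FrobInt p K)
    {m : ℕ} (hm : 1 ≤ m) (h : GenSol' hζ m) : 2 ≤ m ∧ GenSol hζ (m - 1) := by
  have hp2 : p ≠ 2 := by omega
  have hp0 : 0 < p := by omega
  obtain ⟨x, y, z, ε, hxy, hy, hz, heq, hsq⟩ := h
  have hζ' : IsPrimitiveRoot hζ.toInteger p := hζ.toInteger_isPrimitiveRoot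
  have hl : Prime (hζ.toInteger - 1) := hζ.zeta_sub_one_prime'
  obtain ⟨hm2, ρ₀, ρ₁, ρ₂, η₀, η₁, η₂, hρ₀, hρ₁, hρ₂, hcop, e0, e1, e2⟩ :=
    descent_abstract hp.out hp2 hζ' hl hm hxy hy hz heq hsq
  refine ⟨hm2, ?_⟩
  set l : 𝓞 K := hζ.toInteger - 1 with hl_def
  set ζ' : 𝓞 K := hζ.toInteger with hζ'_def
  have hl0 : l ≠ 0 := hl.ne_zero
  -- the linear relation
  have hζpow : ζ' * ζ' ^ (p - 1) = 1 := by
    rw [← pow_succ']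
    have : p - 1 + 1 = p := by omega
    rw [this]
    exact hζ'.pow_eq_one
  have hrel : η₁ * ρ₁ ^ p + ζ' * (η₂ * ρ₂ ^ p) = (1 + ζ') * (η₀ * (l ^ (m - 1) * ρ₀) ^ p) := by
    apply mul_left_cancel₀ hl0
    have : l * (η₁ * ρ₁ ^ p + ζ' * (η₂ * ρ₂ ^ p)) =
        l * (η₁ * ρ₁ ^ p) + ζ' * (l * (η₂ * ρ₂ ^ p)) := by ring
    rw [this, ← e1, ← e2]
    have : l * ((1 + ζ') * (η₀ * (l ^ (m - 1) * ρ₀) ^ p)) =
        (1 + ζ') * (l * (η₀ * (l ^ (m - 1) * ρ₀) ^ p)) := by ring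
    rw [this, ← e0]
    have : x + ζ' * y + ζ' * (x + ζ' ^ (p - 1) * y) = x + ζ' * y + ζ' * x + (ζ' * ζ' ^ (p - 1)) * y := by
      ring
    rw [this, hζpow]
    ring
  -- units
  obtain ⟨uζ, huζ⟩ : IsUnit ζ' := hζ'.isUnit (by omega)
  obtain ⟨u1ζ, hu1ζ⟩ : IsUnit (1 + ζ') := by
    have := hζ'.geom_sum_isUnit (j := 2) hp.out.two_le
      ((Nat.coprime_primes Nat.prime_two hp.out).2 (Ne.symm hp2))
    simpa [Finset.sum_range_succ] using this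
  set η' : (𝓞 K)ˣ := η₁⁻¹ * uζ * η₂ with hη'
  set η'' : (𝓞 K)ˣ := η₁⁻¹ * u1ζ * η₀ with hη''
  have hE : ρ₁ ^ p + η' * ρ₂ ^ p = η'' * (l ^ (m - 1) * ρ₀) ^ p := by
    have h1 : (η₁ : 𝓞 K) * (ρ₁ ^ p + η' * ρ₂ ^ p) = η₁ * ρ₁ ^ p + ζ' * (η₂ * ρ₂ ^ p) := by
      rw [hη']
      push_cast
      rw [huζ]
      have : (η₁ : 𝓞 K) * (ρ₁ ^ p + (↑η₁⁻¹ : 𝓞 K) * ζ' * η₂ * ρ₂ ^ p)
          = η₁ * ρ₁ ^ p + ((η₁ : 𝓞 K) * (↑η₁⁻¹ : 𝓞 K)) * (ζ' * (η₂ * ρ₂ ^ p)) := by ring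
      rw [this, Units.mul_inv, one_mul]
    have h2 : (η₁ : 𝓞 K) * (η'' * (l ^ (m - 1) * ρ₀) ^ p)
        = (1 + ζ') * (η₀ * (l ^ (m - 1) * ρ₀) ^ p) := by
      rw [hη'']
      push_cast
      rw [hu1ζ]
      have : (η₁ : 𝓞 K) * ((↑η₁⁻¹ : 𝓞 K) * (1 + ζ') * η₀ * (l ^ (m - 1) * ρ₀) ^ p)
          = ((η₁ : 𝓞 K) * (↑η₁⁻¹ : 𝓞 K)) * ((1 + ζ') * (η₀ * (l ^ (m - 1) * ρ₀) ^ p)) := by ring
      rw [this, Units.mul_inv, one_mul]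
    apply mul_left_cancel₀ η₁.ne_zero
    rw [h1, h2, hrel]
  -- `p ∣ (l ^ (m - 1) * ρ₀) ^ p`
  have hpdvd : (p : 𝓞 K) ∣ (l ^ (m - 1) * ρ₀) ^ p := by
    have h1 : (p : 𝓞 K) ∣ l ^ (p - 1) :=
      (IsCyclotomicExtension.Rat.associated_zeta_sub_one_pow_prime p hζ).symm.dvd
    have h2 : l ^ (p - 1) ∣ l ^ ((m - 1) * p) := by
      apply pow_dvd_pow
      calc p - 1 ≤ 1 * p := by omega
        _ ≤ (m - 1) * p := Nat.mul_le_mul_right p (by omega)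
    have h3 : l ^ ((m - 1) * p) ∣ (l ^ (m - 1) * ρ₀) ^ p := by
      rw [mul_pow, ← pow_mul]
      exact Dvd.intro _ rfl
    exact h1.trans (h2.trans h3)
  -- η' is congruent to an integer mod p
  obtain ⟨n₁, hn₁⟩ := hfrob ρ₁
  obtain ⟨n₂, hn₂⟩ := hfrob ρ₂
  have hlp : l ∣ (p : 𝓞 K) := hζ.toInteger_sub_one_dvd_prime'
  have hn₂p : ¬ (p : ℤ) ∣ n₂ := by
    intro hdiv
    have h1 : l ∣ (n₂ : 𝓞 K) := (IsCyclotomicExtension.Rat.zeta_sub_one_dvd_intCast_iff' p hζ).2 hdiv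
    have h2 : l ∣ ρ₂ ^ p := by
      have : ρ₂ ^ p = (ρ₂ ^ p - n₂) + n₂ := by ring
      rw [this]
      exact dvd_add (hlp.trans hn₂) h1
    exact hρ₂ (hl.dvd_of_dvd_pow h2)
  have hcopZ : IsCoprime n₂ (p : ℤ) := by
    rw [isCoprime_comm]
    exact (Prime.coprime_iff_not_dvd (Nat.prime_iff_prime_int.1 hp.out)).2 hn₂p
  obtain ⟨k, j, hkj⟩ := hcopZ
  have hkj' : (k : 𝓞 K) * n₂ + j * p = 1 := by exact_mod_cast congrArg (Int.cast : ℤ → 𝓞 K) hkj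
  have hcong : (p : 𝓞 K) ∣ (η' : 𝓞 K) - ((- (k * n₁) : ℤ) : 𝓞 K) := by
    have key : (η' : 𝓞 K) - ((- (k * n₁) : ℤ) : 𝓞 K)
        = (k : 𝓞 K) * ((ρ₁ ^ p + η' * ρ₂ ^ p) - (ρ₁ ^ p - n₁) - η' * (ρ₂ ^ p - n₂))
          + η' * j * p := by
      have : (η' : 𝓞 K) = η' * ((k : 𝓞 K) * n₂ + j * p) := by rw [hkj', mul_one]
      conv_lhs => rw [this]
      push_cast
      ring
    rw [key, hE]
    refine dvd_add (Dvd.dvd.mul_left (dvd_sub (dvd_sub ?_ hn₁) (Dvd.dvd.mul_left hn₂ _)) _)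
      (Dvd.intro_left _ rfl)
    exact Dvd.dvd.mul_left hpdvd _
  obtain ⟨v, hv⟩ := hkum η' _ hcong
  refine ⟨ρ₁, v * ρ₂, ρ₀, η'', ?_, ?_, hρ₀, ?_⟩
  · exact (isCoprime_mul_unit_left_right v.isUnit _ _).2 hcop
  · intro h
    rcases hl.dvd_or_dvd h with h' | h'
    · exact hl.not_isUnit (isUnit_of_dvd_unit h' v.isUnit)
    · exact hρ₂ h'
  · rw [mul_pow, ← hE, hv]
    push_cast
    ring

end descent

end Fermat.Agent.Kummer
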