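import Mathlib
import Fermat.Agent.Kummer.Defs

/-!
# Item 80 (Kummer): `p`-th powers are congruent to rational integers modulo `p`

Shared by 80b (Kummer's lemma) and 80c (Case II).
-/

set_option autoImplicit false

open NumberField

namespace Fermat.Agent.Kummer

/-- In a commutative ring, `(∑ f i) ^ p ≡ ∑ (f i) ^ p mod p` for a prime `p`. -/
theorem dvd_sum_pow_sub_sum_pow {R : Type*} [CommRing R] {p : ℕ} (hp : p.Prime) {ι : Type*}
    (s : Finset ι) (f : ι → R) : (p : R) ∣ (∑ i ∈ s, f i) ^ p - ∑ i ∈ s, f i ^ p := by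
  classical
  induction s using Finset.induction_on with
  | empty => simp [hp.ne_zero]
  | insert i s hi ih =>
    rw [Finset.sum_insert hi, Finset.sum_insert hi]
    obtain ⟨r, hr⟩ := exists_add_pow_prime_eq hp (f i) (∑ j ∈ s, f j)
    obtain ⟨t, ht⟩ := ih
    refine ⟨f i * (∑ j ∈ s, f j) * r + t, ?_⟩
    rw [hr]
    linear_combination ht

variable {p : ℕ} [hp : Fact p.Prime] {K : Type*} [Field K] [NumberField K]
  [IsCyclotomicExtension {p} ℚ K]

/-- **Frobenius**: every `p`-th power in the ring of integers of the `p`-th cyclotomic field is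
congruent to a rational integer modulo `p`. -/
theorem exists_int_pow_sub_dvd (x : 𝓞 K) : ∃ c : ℤ, (p : 𝓞 K) ∣ x ^ p - (c : 𝓞 K) := by
  have hζ := IsCyclotomicExtension.zeta_spec p ℚ K
  set pb := hζ.integralPowerBasis with hpb
  have hx := pb.basis.sum_repr x
  refine ⟨∑ i, (pb.basis.repr x i) ^ p, ?_⟩
  have h1 := dvd_sum_pow_sub_sum_pow (R := 𝓞 K) hp.out Finset.univ
    (fun i => (pb.basis.repr x i) • pb.basis i)
  rw [hx] at h1
  have h2 : ∑ i, ((pb.basis.repr x i) • pb.basis i) ^ p =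
      ((∑ i, (pb.basis.repr x i) ^ p : ℤ) : 𝓞 K) := by
    rw [Int.cast_sum]
    refine Finset.sum_congr rfl fun i _ => ?_
    rw [zsmul_eq_mul, mul_pow, PowerBasis.basis_eq_pow, ← pow_mul, mul_comm (i : ℕ) p, pow_mul,
      IsPrimitiveRoot.integralPowerBasis_gen]
    have h3 : hζ.toInteger ^ p = 1 := by
      have := hζ.toInteger_isPrimitiveRoot
      exact this.pow_eq_one
    rw [h3, one_pow, mul_one, Int.cast_pow]
  rwa [h2] at h1

end Fermat.Agent.Kummer
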