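import Mathlib
import Fermat.Agent.Kummer.CaseIIDefs
import Fermat.Agent.Kummer.Frob

/-!
# Item 80c (Case II): Frobenius, normalisation (pigeonhole), start of the descent
-/

set_option autoImplicit false

open NumberField Polynomial

namespace Fermat.Agent.Kummer

/-- A1: every `p`-th power is congruent to a rational integer modulo `p`. -/
theorem frobInt (p : ℕ) [Fact p.Prime] (K : Type*) [Field K] [NumberField K]
    [IsCyclotomicExtension {p} ℚ K] : FrobInt p K :=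
  fun ρ => exists_int_pow_sub_dvd ρ

variable {p : ℕ} [hp : Fact p.Prime] {K : Type*} [Field K] [NumberField K]
  [IsCyclotomicExtension {p} ℚ K] {ζ : K}

/-- the cardinality of the residue ring at `λ = ζ - 1` is `p` -/
theorem card_quotient_lam (hp2 : p ≠ 2) (hζ : IsPrimitiveRoot ζ p) :
    Nat.card (𝓞 K ⧸ Ideal.span {hζ.toInteger - 1}) = p := by
  rw [hζ.card_quotient_toInteger_sub_one, hζ.norm_toInteger_sub_one_of_prime_ne_two' hp2]
  simp

/-- `λ` divides the difference of two `p`-th roots of unity, and `λ ^ 2` does not if they are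
different (up to a factor prime to `λ`). -/
theorem lam_dvd_of_sq_dvd_sub_mul (hζ : IsPrimitiveRoot ζ p) {η₁ η₂ y : 𝓞 K}
    (h1 : η₁ ∈ nthRootsFinset p (1 : 𝓞 K)) (h2 : η₂ ∈ nthRootsFinset p (1 : 𝓞 K))
    (hne : η₁ ≠ η₂) (h : (hζ.toInteger - 1) ^ 2 ∣ (η₁ - η₂) * y) : (hζ.toInteger - 1) ∣ y := by
  obtain ⟨u, hu⟩ := hζ.toInteger_isPrimitiveRoot.nthRootsFinset_pairwise_associated_sub_one_sub_of_prime
    hp.out h1 h2 hne
  rw [← hu, pow_two, mul_assoc] at h
  have h3 := (mul_dvd_mul_iff_left hζ.zeta_sub_one_prime'.ne_zero).mp h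
  exact (Units.dvd_mul_left).mp h3

/-- A2: normalisation by the pigeonhole principle on `𝓞 K ⧸ λ` (cardinality `p`). -/
theorem genSol'_of_genSol (hp2 : p ≠ 2) (hζ : IsPrimitiveRoot ζ p) {m : ℕ} (hm : 1 ≤ m)
    (h : GenSol hζ m) : GenSol' hζ m := by
  classical
  obtain ⟨x, y, z, ε, hxy, hy, hz, heq⟩ := h
  have hodd : Odd p := hp.out.odd_of_ne_two hp2
  have hζ' := hζ.toInteger_isPrimitiveRoot
  have hlam : Prime (hζ.toInteger - 1) := hζ.zeta_sub_one_prime'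
  -- `λ` divides the product of the factors
  have hprod : ∏ η ∈ nthRootsFinset p (1 : 𝓞 K), (x + η * y) =
      ε * ((hζ.toInteger - 1) ^ m * z) ^ p := by
    rw [← heq, hζ'.pow_add_pow_eq_prod_add_mul x y hodd]
  have hdvd : (hζ.toInteger - 1) ∣ ∏ η ∈ nthRootsFinset p (1 : 𝓞 K), (x + η * y) := by
    rw [hprod, mul_pow, ← pow_mul]
    exact Dvd.dvd.mul_left (Dvd.dvd.mul_right
      (dvd_pow_self _ (Nat.mul_ne_zero (by omega) hp.out.ne_zero)) _) _
  obtain ⟨η₀, hη₀, hη₀dvd⟩ := (Prime.dvd_finsetProd_iff hlam _).mp hdvd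
  -- hence `λ` divides all the factors
  have hall : ∀ η ∈ nthRootsFinset p (1 : 𝓞 K), (hζ.toInteger - 1) ∣ x + η * y := by
    intro η hη
    have h1 : (hζ.toInteger - 1) ∣ η - η₀ := hζ'.sub_one_dvd_sub hp.out hη hη₀
    have h2 : x + η * y = (x + η₀ * y) + (η - η₀) * y := by ring
    rw [h2]
    exact dvd_add hη₀dvd (Dvd.dvd.mul_right h1 _)
  choose! q hq using hall
  -- the quotients are pairwise incongruent modulo `λ`
  let f : nthRootsFinset p (1 : 𝓞 K) → 𝓞 K ⧸ Ideal.span {hζ.toInteger - 1} :=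
    fun η => Ideal.Quotient.mk _ (q η)
  have hinj : Function.Injective f := by
    intro η₁ η₂ h12
    by_contra hne
    have hne' : (η₁ : 𝓞 K) ≠ η₂ := fun h => hne (Subtype.ext h)
    have h3 : (hζ.toInteger - 1) ∣ q η₁ - q η₂ := by
      rw [← Ideal.mem_span_singleton, ← Ideal.Quotient.eq]
      exact h12
    have h4 : (hζ.toInteger - 1) ^ 2 ∣ ((η₁ : 𝓞 K) - η₂) * y := by
      have h5 : ((η₁ : 𝓞 K) - η₂) * y = (hζ.toInteger - 1) * (q η₁ - q η₂) := by
        rw [mul_sub, ← hq _ η₁.2, ← hq _ η₂.2]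
        ring
      rw [h5, pow_two]
      exact mul_dvd_mul_left _ h3
    exact hy (lam_dvd_of_sq_dvd_sub_mul hζ η₁.2 η₂.2 hne' h4)
  have hfin : Finite (𝓞 K ⧸ Ideal.span {hζ.toInteger - 1}) := hζ.finite_quotient_span_sub_one'
  have hcard : Nat.card (𝓞 K ⧸ Ideal.span {hζ.toInteger - 1}) ≤
      Nat.card (nthRootsFinset p (1 : 𝓞 K)) := by
    rw [card_quotient_lam hp2 hζ, Nat.card_eq_fintype_card, Fintype.card_coe,
      hζ'.card_nthRootsFinset]
  obtain ⟨η₁, hη₁⟩ := (hinj.bijective_of_nat_card_le hcard).2 0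
  have hq0 : (hζ.toInteger - 1) ∣ q η₁ := by
    rw [← Ideal.mem_span_singleton, ← Ideal.Quotient.eq_zero_iff_mem]
    exact hη₁
  have hη₁pow : (η₁ : 𝓞 K) ^ p = 1 := (mem_nthRootsFinset hp.out.pos 1).mp η₁.2
  have hη₁unit : IsUnit (η₁ : 𝓞 K) := IsUnit.of_pow_eq_one hη₁pow hp.out.ne_zero
  refine ⟨x, η₁ * y, z, ε, ?_, ?_, hz, ?_, ?_⟩
  · exact (isCoprime_mul_unit_left_right hη₁unit _ _).mpr hxy
  · intro h1
    exact hy ((hη₁unit.dvd_mul_left).mp h1)
  · rw [mul_pow, hη₁pow, one_mul, heq]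
  · rw [hq _ η₁.2, pow_two]
    exact mul_dvd_mul_left _ hq0

set_option linter.unusedVariables false in
/-- C: start of the descent. -/
theorem exists_genSol_of_int (hp2 : p ≠ 2) (hζ : IsPrimitiveRoot ζ p) (a b c : ℤ)
    (hab : IsCoprime a b) (hc : c ≠ 0) (hpc : (p : ℤ) ∣ c) (h : a ^ p + b ^ p = c ^ p) :
    ∃ m : ℕ, 1 ≤ m ∧ GenSol hζ m := by
  have hlam : Prime (hζ.toInteger - 1) := hζ.zeta_sub_one_prime'
  have hc' : (c : 𝓞 K) ≠ 0 := by exact_mod_cast hc
  obtain ⟨m, z, hz, hcz⟩ := WfDvdMonoid.max_power_factor hc' hlam.irreducible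
  have hpp : Prime (p : ℤ) := Nat.prime_iff_prime_int.mp hp.out
  have hlc : (hζ.toInteger - 1) ∣ (c : 𝓞 K) :=
    (IsCyclotomicExtension.Rat.zeta_sub_one_dvd_intCast_iff' p hζ).mpr hpc
  have hm : 1 ≤ m := by
    rcases Nat.eq_zero_or_pos m with h0 | h0
    · exfalso
      rw [h0, pow_zero, one_mul] at hcz
      exact hz (hcz ▸ hlc)
    · exact h0
  refine ⟨m, hm, (a : 𝓞 K), (b : 𝓞 K), z, 1, IsCoprime.intCast hab, ?_, hz, ?_⟩
  · intro hb
    have hpb : (p : ℤ) ∣ b := (IsCyclotomicExtension.Rat.zeta_sub_one_dvd_intCast_iff' p hζ).mp hb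
    have hpa : (p : ℤ) ∣ a := by
      have h1 : (p : ℤ) ∣ a ^ p := by
        have h2 : a ^ p = c ^ p - b ^ p := by linarith
        rw [h2]
        exact dvd_sub (dvd_pow hpc hp.out.ne_zero) (dvd_pow hpb hp.out.ne_zero)
      exact hpp.dvd_of_dvd_pow h1
    exact hpp.not_isUnit (hab.isUnit_of_dvd' hpa hpb)
  · rw [Units.val_one, one_mul, ← hcz]
    exact_mod_cast congrArg (Int.cast : ℤ → 𝓞 K) h

end Fermat.Agent.Kummer
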