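import Mathlib
import Fermat.Agent.Kummer.CaseIIStart
import Fermat.Agent.Kummer.CaseIIDescent

/-!
# Item 80c (Case II): the induction and the final statement
-/

set_option autoImplicit false

open NumberField

namespace Fermat.Agent.Kummer

variable {p : ℕ} [hp : Fact p.Prime] {K : Type*} [Field K] [NumberField K]
  [IsCyclotomicExtension {p} ℚ K] {ζ : K}

/-- D: no generalised solution with `m ≥ 1`. -/
theorem not_genSol (hp5 : 5 ≤ p) (hζ : IsPrimitiveRoot ζ p)
    (hpid : IsPrincipalIdealRing (𝓞 K)) (hkum : KummerLemma p K) {m : ℕ} (hm : 1 ≤ m) :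
    ¬ GenSol hζ m := by
  have hp2 : p ≠ 2 := by omega
  induction m with
  | zero => omega
  | succ n ih =>
    intro h
    obtain ⟨h2, h3⟩ := genSol_descent hp5 hζ hpid hkum (frobInt p K) hm
      (genSol'_of_genSol hp2 hζ hm h)
    rw [Nat.add_sub_cancel] at h3
    exact ih (by omega) h3

/-- **80c, CASE II** of Fermat's Last Theorem, for a prime `p ≥ 5` such that the ring of integers
of the `p`-th cyclotomic field is a PID and Kummer's lemma holds. -/
theorem caseII_of_pid_of_kummerLemma (p : ℕ) [Fact p.Prime] (hp5 : 5 ≤ p) (K : Type*) [Field K]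
    [NumberField K] [IsCyclotomicExtension {p} ℚ K] (hpid : IsPrincipalIdealRing (𝓞 K))
    (hkum : KummerLemma p K) (a b c : ℤ) (hab : IsCoprime a b) (hc : c ≠ 0)
    (hpc : (p : ℤ) ∣ c) : a ^ p + b ^ p ≠ c ^ p := by
  intro h
  have hp2 : p ≠ 2 := by omega
  have hζ := IsCyclotomicExtension.zeta_spec p ℚ K
  obtain ⟨m, hm, hsol⟩ := exists_genSol_of_int hp2 hζ a b c hab hc hpc h
  exact not_genSol hp5 hζ hpid hkum hm hsol

end Fermat.Agent.Kummer
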