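import Mathlib
import Fermat.Agent.Kummer.Defs

/-!
# Item 80b (Kummer's lemma): the logarithmic derivative argument

If a product of powers `∏ U_k ^ a_k` of polynomials with nonzero constant terms is congruent
to a constant modulo `X ^ (m + 1)`, then `∑ a_k U_k' E_k ≡ 0` modulo `X ^ m`, where
`U_k E_k = T` does not depend on `k`.
-/

set_option autoImplicit false

open Polynomial

namespace Fermat.Agent.Kummer

theorem X_pow_dvd_sum_of_X_pow_dvd_prod_sub {R : Type*} [CommRing R] [IsDomain R] {n : ℕ}
    (U E : Fin n → R[X]) (T : R[X]) (hE : ∀ k, U k * E k = T) (hU : ∀ k, (U k).coeff 0 ≠ 0)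
    (a : Fin n → ℕ) (c : R) (m : ℕ) (h : (X : R[X]) ^ (m + 1) ∣ ∏ k, U k ^ a k - C c) :
    (X : R[X]) ^ m ∣ ∑ k, C (a k : R) * (derivative (U k) * E k) := by
  classical
  set P : R[X] := ∏ k, U k ^ a k with hP
  -- `X ^ m` divides the derivative of `P`
  have hP' : (X : R[X]) ^ m ∣ derivative P := by
    obtain ⟨Q, hQ⟩ := h
    have h1 : P = C c + X ^ (m + 1) * Q := by rw [← hQ]; ring
    rw [h1, derivative_add, derivative_C, zero_add, derivative_mul, derivative_X_pow_succ]
    refine dvd_add ?_ ?_
    · exact Dvd.intro (C ((m : R) + 1) * Q) (by ring)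
    · exact Dvd.intro (X * derivative Q) (by ring)
  -- the logarithmic derivative identity
  have hkey : derivative P * T = P * ∑ k, C (a k : R) * (derivative (U k) * E k) := by
    rw [hP, derivative_prod_finset, Finset.sum_mul, Finset.mul_sum]
    refine Finset.sum_congr rfl fun i _ => ?_
    rw [derivative_pow, ← hP]
    rcases Nat.eq_zero_or_pos (a i) with h0 | hpos
    · simp [h0]
    · have h2 : P = (∏ j ∈ Finset.univ.erase i, U j ^ a j) * U i ^ a i := by
        rw [hP, Finset.prod_erase_mul _ _ (Finset.mem_univ i)]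
      have h3 : U i ^ a i = U i ^ (a i - 1) * U i := by
        rw [← pow_succ, Nat.sub_add_cancel hpos]
      rw [h2, h3, ← hE i]
      ring
  -- `X` does not divide `P`
  have hXP : ¬ (X : R[X]) ∣ P := by
    rw [X_dvd_iff, hP, coeff_zero_eq_eval_zero, eval_prod]
    refine Finset.prod_ne_zero_iff.mpr fun k _ => ?_
    rw [eval_pow, ← coeff_zero_eq_eval_zero]
    exact pow_ne_zero _ (hU k)
  refine Prime.pow_dvd_of_dvd_mul_left prime_X m hXP ?_
  rw [← hkey]
  exact Dvd.dvd.mul_right hP' T

end Fermat.Agent.Kummer
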