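import Mathlib
import Fermat.Agent.Kummer.Defs

/-!
# Item 80b (Kummer's lemma): the polynomials attached to the cyclotomic units

`cycU R 0 = 1 + X` (the image of `ζ` under `ζ ↦ 1 + X`) and
`cycU R k = ∑_{i < k + 1} (1 + X) ^ i` (the image of the cyclotomic unit `1 + ζ + ⋯ + ζ ^ k`).
`IndepStatement p n` is the finite check needed for Kummer's lemma.
-/

set_option autoImplicit false

open Polynomial

namespace Fermat.Agent.Kummer

/-- the polynomial attached to the `k`-th cyclotomic unit -/
noncomputable def cycU (R : Type*) [CommRing R] (k : ℕ) : R[X] :=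
  if k = 0 then 1 + X else ∑ i ∈ Finset.range (k + 1), (1 + X) ^ i

/-- the complementary product `∏_{j ≠ k} cycU j` -/
noncomputable def cycE (R : Type*) [CommRing R] (n : ℕ) (k : Fin n) : R[X] :=
  ∏ j : Fin n, if j = k then 1 else cycU R j

theorem cycU_zero (R : Type*) [CommRing R] : cycU R 0 = 1 + X := by simp [cycU]

theorem cycU_succ (R : Type*) [CommRing R] (k : ℕ) :
    cycU R (k + 1) = ∑ i ∈ Finset.range (k + 2), (1 + X) ^ i := by simp [cycU]

theorem cycU_mul_cycE (R : Type*) [CommRing R] (n : ℕ) (k : Fin n) :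
    cycU R k * cycE R n k = ∏ j : Fin n, cycU R j := by
  classical
  have h1 : cycU R k = ∏ j : Fin n, if j = k then cycU R j else 1 := by
    rw [Finset.prod_ite_eq' Finset.univ k (fun j => cycU R j)]
    simp
  rw [cycE]
  nth_rewrite 1 [h1]
  rw [← Finset.prod_mul_distrib]
  refine Finset.prod_congr rfl fun j _ => ?_
  by_cases h : j = k <;> simp [h]

theorem cycU_coeff_zero (R : Type*) [CommRing R] (k : ℕ) :
    (cycU R k).coeff 0 = ((k + 1 : ℕ) : R) := by
  rcases Nat.eq_zero_or_pos k with rfl | hk
  · simp [cycU_zero]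
  · rw [cycU, if_neg hk.ne', coeff_zero_eq_eval_zero, eval_finsetSum]
    simp

/-- **the finite check**: the logarithmic derivatives of `cycU 0, …, cycU (n - 1)` are linearly
independent modulo `X ^ (p - 2)` over `ZMod p` (to be used with `n = (p - 1) / 2`, `p` a regular
prime). -/
def IndepStatement (p n : ℕ) : Prop :=
  ∀ g : Fin n → ZMod p,
    (X : (ZMod p)[X]) ^ (p - 2) ∣
      ∑ k : Fin n, C (g k) * (derivative (cycU (ZMod p) k) * cycE (ZMod p) n k) →
    ∀ k, g k = 0

end Fermat.Agent.Kummer
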