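import Mathlib
import Fermat.Agent.Kummer.Frob

/-!
# Item 80b (Kummer's lemma): the subgroup of units congruent to a rational integer modulo `p`
-/

set_option autoImplicit false

open NumberField

namespace Fermat.Agent.Kummer

variable (p : ℕ) [hp : Fact p.Prime] (K : Type*) [Field K] [NumberField K]
  [IsCyclotomicExtension {p} ℚ K]

/-- `p` is not a unit of the ring of integers of the `p`-th cyclotomic field -/
theorem not_isUnit_prime_cast : ¬ IsUnit (p : 𝓞 K) := by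
  have hζ := IsCyclotomicExtension.zeta_spec p ℚ K
  intro h
  exact hζ.zeta_sub_one_prime'.not_isUnit (isUnit_of_dvd_unit hζ.toInteger_sub_one_dvd_prime' h)

/-- the units of `𝓞 K` which are congruent to a rational integer modulo `p` -/
def intSubgroup : Subgroup (𝓞 K)ˣ where
  carrier := {u | ∃ c : ℤ, (p : 𝓞 K) ∣ (u : 𝓞 K) - (c : 𝓞 K)}
  one_mem' := ⟨1, by simp⟩
  mul_mem' := by
    rintro u v ⟨a, s, hs⟩ ⟨b, t, ht⟩
    refine ⟨a * b, s * v + a * t, ?_⟩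
    push_cast
    linear_combination (v : 𝓞 K) * hs + (a : 𝓞 K) * ht
  inv_mem' := by
    rintro u ⟨c, s, hs⟩
    have hc : ¬ (p : ℤ) ∣ c := by
      rintro ⟨d, rfl⟩
      apply not_isUnit_prime_cast p K
      refine isUnit_of_dvd_unit (y := (u : 𝓞 K)) ⟨s + d, ?_⟩ u.isUnit
      push_cast at hs
      linear_combination hs
    have hcop : IsCoprime c (p : ℤ) :=
      ((Nat.prime_iff_prime_int.mp hp.out).coprime_iff_not_dvd.mpr hc).symm
    obtain ⟨a, b, hab⟩ := hcop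
    refine ⟨a, ((u⁻¹ : (𝓞 K)ˣ) : 𝓞 K) * (b - a * s), ?_⟩
    have h1 : ((u⁻¹ : (𝓞 K)ˣ) : 𝓞 K) * (u : 𝓞 K) = 1 := by simp
    have h2 : ((a * c + b * p : ℤ) : 𝓞 K) = 1 := by rw [hab]; simp
    push_cast at h2
    linear_combination (a : 𝓞 K) * h1 - ((u⁻¹ : (𝓞 K)ˣ) : 𝓞 K) * h2
      - ((u⁻¹ : (𝓞 K)ˣ) : 𝓞 K) * (a : 𝓞 K) * hs

variable {p K}

omit hp [NumberField K] [IsCyclotomicExtension {p} ℚ K] in
theorem mem_intSubgroup [Fact p.Prime] [NumberField K] [IsCyclotomicExtension {p} ℚ K]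
    {u : (𝓞 K)ˣ} :
    u ∈ intSubgroup p K ↔ ∃ c : ℤ, (p : 𝓞 K) ∣ (u : 𝓞 K) - (c : 𝓞 K) := Iff.rfl

theorem pow_mem_intSubgroup (v : (𝓞 K)ˣ) : v ^ p ∈ intSubgroup p K := by
  obtain ⟨c, hc⟩ := exists_int_pow_sub_dvd (p := p) (v : 𝓞 K)
  exact ⟨c, by simpa using hc⟩

end Fermat.Agent.Kummer
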