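import Mathlib
import Fermat.Agent.Kummer.Defs

/-!
# Item 80b (Kummer's lemma), generic part: Dirichlet's unit theorem

If a subgroup `H` of the units `E` of `𝓞 K` contains all `p`-th powers and `rank K + 1` units are
independent modulo `H` (only trivial products of powers lie in `H`), then `H` is exactly the group
of `p`-th powers.
-/

set_option autoImplicit false

open NumberField NumberField.Units

namespace Fermat.Agent.Kummer

variable {K : Type*} [Field K] [NumberField K]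

/-- every unit is a product of powers of a fixed generator of the torsion and of the
fundamental units -/
theorem exists_unit_eq_zpow_mul_prod :
    ∃ τ : (𝓞 K)ˣ, ∀ x : (𝓞 K)ˣ, ∃ (e₀ : ℤ) (e : Fin (rank K) → ℤ),
      x = τ ^ e₀ * ∏ i, (fundSystem K i) ^ (e i) := by
  obtain ⟨g, hg⟩ := IsCyclic.exists_generator (α := torsion K)
  refine ⟨(g : (𝓞 K)ˣ), fun x => ?_⟩
  obtain ⟨⟨t, e⟩, hx, -⟩ := exist_unique_eq_mul_prod K x
  obtain ⟨k, hk⟩ := Subgroup.mem_zpowers_iff.mp (hg t)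
  refine ⟨k, e, ?_⟩
  rw [hx]
  congr 1
  rw [← hk]
  simp

end Fermat.Agent.Kummer

namespace Fermat.Agent.Kummer

variable {K : Type*} [Field K] [NumberField K]

/-- **Generic part of Kummer's lemma.**  Let `H` be a subgroup of the units of `𝓞 K` which
contains all `p`-th powers.  If `n = rank K + 1` units `u k` are independent modulo `H`, then
every element of `H` is a `p`-th power. -/
theorem exists_pow_eq_of_mem_of_indep (p : ℕ) [hp : Fact p.Prime] (H : Subgroup (𝓞 K)ˣ)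
    (hH : ∀ v : (𝓞 K)ˣ, v ^ p ∈ H) (n : ℕ) (hn : n = rank K + 1) (u : Fin n → (𝓞 K)ˣ)
    (hu : ∀ a : Fin n → ℕ, ∏ k, u k ^ a k ∈ H → ∀ k, p ∣ a k)
    (x : (𝓞 K)ˣ) (hx : x ∈ H) : ∃ v : (𝓞 K)ˣ, x = v ^ p := by
  classical
  subst hn
  set φ : Additive (𝓞 K)ˣ →+ Additive ((𝓞 K)ˣ ⧸ H) :=
    MonoidHom.toAdditive (QuotientGroup.mk' H) with hφ
  have hφ0 : ∀ y : (𝓞 K)ˣ, φ (Additive.ofMul y) = 0 ↔ y ∈ H := by
    intro y
    show Additive.ofMul (QuotientGroup.mk' H y) = 0 ↔ _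
    rw [ofMul_eq_zero, QuotientGroup.mk'_apply, QuotientGroup.eq_one_iff]
  have hφsurj : Function.Surjective φ := by
    intro v
    obtain ⟨y, hy⟩ := QuotientGroup.mk_surjective (Additive.toMul v)
    exact ⟨Additive.ofMul y, by rw [hφ]; exact congrArg Additive.ofMul hy⟩
  have hQ : ∀ v : Additive ((𝓞 K)ˣ ⧸ H), p • v = 0 := by
    intro v
    obtain ⟨y, rfl⟩ := hφsurj v
    obtain ⟨y, rfl⟩ := Additive.ofMul.surjective y
    rw [← map_nsmul, ← ofMul_pow, hφ0]
    exact hH _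
  let _ : Module (ZMod p) (Additive ((𝓞 K)ˣ ⧸ H)) :=
    AddCommGroup.zmodModule (n := p) (G := Additive ((𝓞 K)ˣ ⧸ H)) hQ
  obtain ⟨τ, hτ⟩ := exists_unit_eq_zpow_mul_prod (K := K)
  -- the spanning family
  set w : Fin (rank K + 1) → Additive ((𝓞 K)ˣ ⧸ H) :=
    Fin.cons (φ (Additive.ofMul τ)) (fun i => φ (Additive.ofMul (fundSystem K i))) with hw
  have hrepr : ∀ (e₀ : ℤ) (e : Fin (rank K) → ℤ),
      φ (Additive.ofMul (τ ^ e₀ * ∏ i, (fundSystem K i) ^ (e i))) =
        ∑ j, ((Fin.cons e₀ e : Fin (rank K + 1) → ℤ) j : ZMod p) • w j := by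
    intro e₀ e
    rw [Fin.sum_univ_succ]
    simp only [Fin.cons_zero, Fin.cons_succ, hw, Int.cast_smul_eq_zsmul]
    rw [ofMul_mul, map_add, ofMul_zpow, map_zsmul, ofMul_prod, map_sum]
    congr 1
  have hspan : ⊤ ≤ Submodule.span (ZMod p) (Set.range w) := by
    intro v _
    obtain ⟨y, rfl⟩ := hφsurj v
    obtain ⟨y, rfl⟩ := Additive.ofMul.surjective y
    obtain ⟨e₀, e, hy⟩ := hτ y
    rw [hy, hrepr]
    exact Submodule.sum_mem _ fun j _ =>
      Submodule.smul_mem _ _ (Submodule.subset_span ⟨j, rfl⟩)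
  have : Module.Finite (ZMod p) (Additive ((𝓞 K)ˣ ⧸ H)) :=
    Module.finite_def.mpr ⟨Finset.univ.image w, by
      rw [Finset.coe_image, Finset.coe_univ, Set.image_univ, top_le_iff.mp hspan]⟩
  -- the independent family
  have hv : LinearIndependent (ZMod p) (fun k => φ (Additive.ofMul (u k))) := by
    rw [Fintype.linearIndependent_iff]
    intro g hg k
    have h1 : ∑ i, g i • φ (Additive.ofMul (u i)) =
        φ (Additive.ofMul (∏ i, u i ^ (g i).val)) := by
      rw [ofMul_prod, map_sum]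
      refine Finset.sum_congr rfl fun i _ => ?_
      rw [ofMul_pow, map_nsmul]
      conv_lhs => rw [← ZMod.natCast_zmod_val (g i)]
      exact Nat.cast_smul_eq_nsmul (ZMod p) _ _
    rw [h1, hφ0] at hg
    have h2 := hu (fun i => (g i).val) hg k
    have h3 : ((g k).val : ZMod p) = 0 := (ZMod.natCast_eq_zero_iff _ _).mpr h2
    rwa [ZMod.natCast_zmod_val] at h3
  have hcard1 := hv.fintype_card_le_finrank
  have hcard2 : Module.finrank (ZMod p) (Additive ((𝓞 K)ˣ ⧸ H)) ≤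
      Fintype.card (Fin (rank K + 1)) := by
    have := finrank_range_le_card (R := ZMod p) w
    rwa [Set.finrank, top_le_iff.mp hspan, finrank_top] at this
  have hwli : LinearIndependent (ZMod p) w :=
    linearIndependent_of_top_le_span_of_card_eq_finrank hspan (le_antisymm hcard1 hcard2)
  -- conclusion
  obtain ⟨e₀, e, hxe⟩ := hτ x
  have hx0 := (hφ0 x).mpr hx
  rw [hxe, hrepr] at hx0
  have hdiv : ∀ j, (p : ℤ) ∣ (Fin.cons e₀ e : Fin (rank K + 1) → ℤ) j := fun j =>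
    (ZMod.intCast_zmod_eq_zero_iff_dvd _ _).mp (Fintype.linearIndependent_iff.mp hwli _ hx0 j)
  obtain ⟨f₀, hf₀⟩ : (p : ℤ) ∣ e₀ := by simpa using hdiv 0
  have hfe : ∀ i, (p : ℤ) ∣ e i := fun i => by simpa using hdiv i.succ
  choose f hf using hfe
  refine ⟨τ ^ f₀ * ∏ i, (fundSystem K i) ^ (f i), ?_⟩
  rw [hxe, mul_pow, ← Finset.prod_pow, ← zpow_natCast, ← zpow_mul, hf₀, mul_comm (p : ℤ) f₀]
  congr 1
  refine Finset.prod_congr rfl fun i _ => ?_
  rw [← zpow_natCast, ← zpow_mul, hf i, mul_comm (p : ℤ)]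

end Fermat.Agent.Kummer
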