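import Mathlib
import Fermat.Agent.Kummer.KLSubgroup
import Fermat.Agent.Kummer.UnitRank
import Fermat.Agent.Kummer.DLog
import Fermat.Agent.Kummer.KLDefs

/-!
# Item 80b (Kummer's lemma): from the finite check to Kummer's lemma

`kummerLemma_of_indep`: `IndepStatement p ((p - 1) / 2)` implies `KummerLemma p K` for the
`p`-th cyclotomic field `K`.
-/

set_option autoImplicit false

open NumberField Polynomial

namespace Fermat.Agent.Kummer

section ev

variable (p : ℕ) [hp : Fact p.Prime]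

/-- the truncated polynomial ring `𝔽_p[X] / (X ^ (p - 1))` -/
abbrev TruncRing : Type := (ZMod p)[X] ⧸ Ideal.span {(X : (ZMod p)[X]) ^ (p - 1)}

/-- `∑_{i < p} (1 + X) ^ i = X ^ (p - 1)` in `𝔽_p[X]` -/
theorem geom_sum_one_add_X : ∑ i ∈ Finset.range p, ((1 : (ZMod p)[X]) + X) ^ i = X ^ (p - 1) := by
  have h1 : ((1 : (ZMod p)[X]) + X - 1) * ∑ i ∈ Finset.range p, ((1 : (ZMod p)[X]) + X) ^ i =
      (1 + X) ^ p - 1 := mul_geom_sum _ _
  rw [add_pow_char, one_pow] at h1
  have h2 : (X : (ZMod p)[X]) * ∑ i ∈ Finset.range p, ((1 : (ZMod p)[X]) + X) ^ i =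
      X * X ^ (p - 1) := by
    rw [← pow_succ', Nat.sub_add_cancel hp.out.one_le]
    linear_combination h1
  exact mul_left_cancel₀ X_ne_zero h2

variable {p} {K : Type*} [Field K] [NumberField K] [IsCyclotomicExtension {p} ℚ K]
  {ζ : K} (hζ : IsPrimitiveRoot ζ p)

theorem aeval_minpoly_gen_eq_zero :
    aeval (Ideal.Quotient.mk (Ideal.span {(X : (ZMod p)[X]) ^ (p - 1)}) (1 + X))
      (minpoly ℤ hζ.integralPowerBasis.gen) = 0 := by
  have h1 : minpoly ℤ hζ.integralPowerBasis.gen = cyclotomic p ℤ := by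
    rw [IsPrimitiveRoot.integralPowerBasis_gen,
      ← minpoly.algebraMap_eq (RingOfIntegers.coe_injective (K := K)),
      cyclotomic_eq_minpoly hζ hp.out.pos]
    rfl
  rw [h1, cyclotomic_prime, map_sum]
  simp only [map_pow, aeval_X]
  have h2 := congrArg (Ideal.Quotient.mk (Ideal.span {(X : (ZMod p)[X]) ^ (p - 1)}))
    (geom_sum_one_add_X p)
  rw [map_sum] at h2
  simp only [map_pow] at h2
  rw [h2, ← map_pow, Ideal.Quotient.eq_zero_iff_mem]
  exact Ideal.subset_span rfl

/-- the ring homomorphism `𝓞 K → 𝔽_p[X] / (X ^ (p - 1))`, `ζ ↦ 1 + X` -/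
noncomputable def evTrunc : 𝓞 K →+* TruncRing p :=
  (hζ.integralPowerBasis.lift _ (aeval_minpoly_gen_eq_zero hζ)).toRingHom

theorem evTrunc_zeta :
    evTrunc hζ hζ.toInteger = Ideal.Quotient.mk _ (1 + X) := by
  have := hζ.integralPowerBasis.lift_gen _ (aeval_minpoly_gen_eq_zero hζ)
  rw [IsPrimitiveRoot.integralPowerBasis_gen] at this
  exact this

theorem evTrunc_intCast (c : ℤ) :
    evTrunc hζ (c : 𝓞 K) = Ideal.Quotient.mk _ (C (c : ZMod p)) := by
  rw [map_intCast, show (C (c : ZMod p) : (ZMod p)[X]) = (c : (ZMod p)[X]) from map_intCast C c,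
    map_intCast]

theorem evTrunc_prime : evTrunc hζ (p : 𝓞 K) = 0 := by
  have := evTrunc_intCast hζ (p : ℤ)
  rw [Int.cast_natCast] at this
  rw [this]
  simp

/-- the cyclotomic units `ζ`, `1 + ζ`, `1 + ζ + ζ ^ 2`, … as elements of `𝓞 K` -/
noncomputable def cycElt (k : ℕ) : 𝓞 K :=
  if k = 0 then hζ.toInteger else ∑ i ∈ Finset.range (k + 1), hζ.toInteger ^ i

theorem evTrunc_cycElt (k : ℕ) :
    evTrunc hζ (cycElt hζ k) = Ideal.Quotient.mk _ (cycU (ZMod p) k) := by
  unfold cycElt cycU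
  split_ifs with h
  · exact evTrunc_zeta hζ
  · rw [map_sum, map_sum]
    refine Finset.sum_congr rfl fun i _ => ?_
    rw [map_pow, map_pow, evTrunc_zeta]

omit [NumberField K] [IsCyclotomicExtension {p} ℚ K] in
theorem isUnit_cycElt {k : ℕ} (hk : k + 1 < p) : IsUnit (cycElt hζ k) := by
  unfold cycElt
  split_ifs with h
  · exact hζ.toInteger_isPrimitiveRoot.isUnit hp.out.ne_zero
  · refine hζ.toInteger_isPrimitiveRoot.geom_sum_isUnit hp.out.two_le ?_
    exact Nat.Coprime.symm ((Nat.Prime.coprime_iff_not_dvd hp.out).mpr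
      (Nat.not_dvd_of_pos_of_lt (Nat.succ_pos k) hk))

/-- the number of cyclotomic units used: `rank K + 1 = (p - 1) / 2` -/
theorem rank_add_one (hp3 : 3 ≤ p) : (p - 1) / 2 = NumberField.Units.rank K + 1 := by
  have h1 := NumberField.InfinitePlace.card_eq_nrRealPlaces_add_nrComplexPlaces (K := K)
  have h2 := IsCyclotomicExtension.Rat.nrRealPlaces_eq_zero (n := p) K (by omega)
  have h3 := IsCyclotomicExtension.Rat.nrComplexPlaces_eq_totient_div_two (n := p) K
  rw [Nat.totient_prime hp.out] at h3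
  rw [NumberField.Units.rank, h1, h2, h3]
  omega

/-- **Kummer's lemma from the finite check.** -/
theorem kummerLemma_of_indep (p : ℕ) [hp : Fact p.Prime] (hp3 : 3 ≤ p)
    (hind : IndepStatement p ((p - 1) / 2)) (K : Type*) [Field K] [NumberField K]
    [IsCyclotomicExtension {p} ℚ K] : KummerLemma p K := by
  have hζ := IsCyclotomicExtension.zeta_spec p ℚ K
  intro u c hu
  have hlt : ∀ k : Fin ((p - 1) / 2), (k : ℕ) + 1 < p := fun k => by
    have := k.2
    omega
  refine exists_pow_eq_of_mem_of_indep p (intSubgroup p K) pow_mem_intSubgroup ((p - 1) / 2)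
    (rank_add_one hp3) (fun k => (isUnit_cycElt hζ (hlt k)).unit) ?_ u ⟨c, hu⟩
  intro a ha k
  obtain ⟨d, s, hs⟩ := ha
  -- apply `evTrunc`
  have h1 := congrArg (evTrunc hζ) hs
  rw [map_sub, map_mul, evTrunc_prime, zero_mul, sub_eq_zero, evTrunc_intCast] at h1
  have h2 : evTrunc hζ ((∏ k, (isUnit_cycElt hζ (hlt k)).unit ^ a k : (𝓞 K)ˣ) : 𝓞 K) =
      Ideal.Quotient.mk _ (∏ k : Fin ((p - 1) / 2), cycU (ZMod p) k ^ a k) := by
    rw [Units.coe_prod, map_prod, map_prod]
    refine Finset.prod_congr rfl fun i _ => ?_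
    rw [Units.val_pow_eq_pow_val, map_pow, map_pow, IsUnit.unit_spec, evTrunc_cycElt]
  rw [h2, Ideal.Quotient.eq, Ideal.mem_span_singleton] at h1
  -- the logarithmic derivative
  have h3 := X_pow_dvd_sum_of_X_pow_dvd_prod_sub (fun k : Fin ((p - 1) / 2) => cycU (ZMod p) k)
    (cycE (ZMod p) ((p - 1) / 2)) _ (cycU_mul_cycE (ZMod p) _) (fun k => by
      rw [cycU_coeff_zero]
      intro h0
      have := (ZMod.natCast_eq_zero_iff _ _).mp h0
      exact Nat.not_dvd_of_pos_of_lt (Nat.succ_pos _) (hlt k) this) a (d : ZMod p) (p - 2) (by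
      have : p - 2 + 1 = p - 1 := by omega
      rw [this]
      exact h1)
  have h4 := hind (fun k => (a k : ZMod p)) h3 k
  exact (ZMod.natCast_eq_zero_iff _ _).mp h4

end ev

end Fermat.Agent.Kummer
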