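import Mathlib
import Fermat.Agent.Kummer.CaseI
import Fermat.Agent.Kummer.CaseIIFinal
import Fermat.Agent.Kummer.KLGlue

/-!
# Item 80e (Kummer): assembly

Fermat's Last Theorem for an exponent `p ∈ {5, 7, 11, 13}`, from
* Case I (`caseI`, Sophie Germain),
* Case II (`caseII_of_pid_of_kummerLemma`),
* Kummer's lemma (`kummerLemma_of_indep` + the finite check `IndepStatement p ((p - 1) / 2)`),
* the principality of the ring of integers of the `p`-th cyclotomic field.
-/

set_option autoImplicit false

open NumberField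

namespace Fermat.Agent.Kummer

/-- `IsCoprime a b` and `a ^ p + b ^ p = c ^ p` imply `IsCoprime c b`. -/
theorem isCoprime_of_flt_right {p : ℕ} (hp : 0 < p) {a b c : ℤ} (hab : IsCoprime a b)
    (h : a ^ p + b ^ p = c ^ p) : IsCoprime c b := by
  rw [← IsCoprime.pow_left_iff hp, ← h]
  have h1 : IsCoprime (a ^ p) b := hab.pow_left
  have h2 := h1.add_mul_left_left (b ^ (p - 1))
  have h3 : b * b ^ (p - 1) = b ^ p := by
    rw [← pow_succ', Nat.sub_add_cancel hp]
  rwa [h3] at h2

/-- **Fermat's Last Theorem for an exponent `p ∈ {5, 7, 11, 13}`**, given that the ring of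
integers of the `p`-th cyclotomic field is principal and the finite check for Kummer's lemma. -/
theorem flt_of_pid_of_indep (p : ℕ) [hpp : Fact p.Prime] (hp : p = 5 ∨ p = 7 ∨ p = 11 ∨ p = 13)
    (K : Type*) [Field K] [NumberField K] [IsCyclotomicExtension {p} ℚ K]
    (hpid : IsPrincipalIdealRing (𝓞 K)) (hind : IndepStatement p ((p - 1) / 2))
    (a b c : ℤ) (ha : a ≠ 0) (hb : b ≠ 0) (hc : c ≠ 0) (hab : IsCoprime a b) :
    a ^ p + b ^ p ≠ c ^ p := by
  have hp5 : 5 ≤ p := by rcases hp with rfl | rfl | rfl | rfl <;> norm_num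
  have hodd : Odd p := hpp.out.odd_of_ne_two (by omega)
  have hkum : KummerLemma p K := kummerLemma_of_indep p (by omega) hind K
  intro h
  by_cases hdiv : (p : ℤ) ∣ a * b * c
  · have hpi : Prime (p : ℤ) := Nat.prime_iff_prime_int.mp hpp.out
    rcases hpi.dvd_mul.mp hdiv with hab' | hc'
    · rcases hpi.dvd_mul.mp hab' with ha' | hb'
      · -- `p ∣ a`: `c ^ p + (-b) ^ p = a ^ p`
        have hcb : IsCoprime c b := isCoprime_of_flt_right hpp.out.pos hab h
        refine caseII_of_pid_of_kummerLemma p hp5 K hpid hkum c (-b) a hcb.neg_right ha ha' ?_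
        rw [hodd.neg_pow]
        linear_combination -h
      · -- `p ∣ b`: `c ^ p + (-a) ^ p = b ^ p`
        have hca : IsCoprime c a :=
          isCoprime_of_flt_right hpp.out.pos hab.symm (by rw [← h]; ring)
        refine caseII_of_pid_of_kummerLemma p hp5 K hpid hkum c (-a) b hca.neg_right hb hb' ?_
        rw [hodd.neg_pow]
        linear_combination -h
    · exact caseII_of_pid_of_kummerLemma p hp5 K hpid hkum a b c hab hc hc' h
  · exact caseI p hp a b c hab hdiv h

end Fermat.Agent.Kummer
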