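import Mathlib
import Fermat.Agent.Kummer.KLDefs

/-!
# Item 80b (iii): tools for the finite independence checks

`hornerL R l`: the polynomial with the list of integer coefficients `l`.
-/

set_option autoImplicit false

open Polynomial

namespace Fermat.Agent.Kummer

/-- the polynomial with the list of integer coefficients `l` (Horner form) -/
noncomputable def hornerL (R : Type*) [CommRing R] : List ℤ → R[X]
  | [] => 0
  | c :: l => (c : R[X]) + X * hornerL R l

@[simp] theorem hornerL_nil (R : Type*) [CommRing R] : hornerL R [] = 0 := rfl

@[simp] theorem hornerL_cons (R : Type*) [CommRing R] (c : ℤ) (l : List ℤ) :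
    hornerL R (c :: l) = (c : R[X]) + X * hornerL R l := rfl

theorem coeff_hornerL (R : Type*) [CommRing R] (l : List ℤ) (j : ℕ) :
    (hornerL R l).coeff j = ((l.getD j 0 : ℤ) : R) := by
  induction l generalizing j with
  | nil => simp
  | cons c l ih =>
    cases j with
    | zero => simp
    | succ n =>
      rw [hornerL_cons, coeff_add, coeff_X_mul, ih, ← C_eq_intCast, coeff_C_succ]
      simp

/-- This lemma forces the equation lemmas of `hornerL` to be generated in this module (and not
in each of the modules importing it). -/
theorem hornerL_eqns_realized (R : Type*) [CommRing R] (c : ℤ) (l : List ℤ) :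
    hornerL R [] = 0 ∧ hornerL R (c :: l) = (c : R[X]) + X * hornerL R l ∧
      (hornerL R l = match l with
        | [] => 0
        | c :: l => (c : R[X]) + X * hornerL R l) ∧
      (@hornerL = fun R [CommRing R] x =>
        match x with
        | [] => 0
        | c :: l => (c : R[X]) + X * hornerL R l) :=
  ⟨hornerL.eq_1 R, hornerL.eq_2 R c l, hornerL.eq_def R l, hornerL.eq_unfold⟩

end Fermat.Agent.Kummer
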