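import Mathlib
import Fermat.Agent.Kummer.KLDataLib

/-!
# Item 80b (iii): the finite independence check for `p = 11`
-/

set_option autoImplicit false
set_option linter.unusedSimpArgs false

open Polynomial

namespace Fermat.Agent.Kummer

theorem cycU11_0_eq : cycU (ZMod 11) 0 = hornerL (ZMod 11) [1, 1] := by
  simp [cycU, hornerL, Finset.sum_range_succ]
  try ring

theorem cycU11_1_eq : cycU (ZMod 11) 1 = hornerL (ZMod 11) [2, 1] := by
  simp [cycU, hornerL, Finset.sum_range_succ]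
  try ring

theorem cycU11_2_eq : cycU (ZMod 11) 2 = hornerL (ZMod 11) [3, 3, 1] := by
  simp [cycU, hornerL, Finset.sum_range_succ]
  try ring

theorem cycU11_3_eq : cycU (ZMod 11) 3 = hornerL (ZMod 11) [4, 6, 4, 1] := by
  simp [cycU, hornerL, Finset.sum_range_succ]
  try ring

theorem cycU11_4_eq : cycU (ZMod 11) 4 = hornerL (ZMod 11) [5, 10, 10, 5, 1] := by
  simp [cycU, hornerL, Finset.sum_range_succ]
  try ring

theorem cycE11_0_eq : cycE (ZMod 11) 5 0 =
    cycU (ZMod 11) 1 * cycU (ZMod 11) 2 * cycU (ZMod 11) 3 * cycU (ZMod 11) 4 := by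
  simp [cycE, Fin.prod_univ_five]

theorem cycE11_1_eq : cycE (ZMod 11) 5 1 =
    cycU (ZMod 11) 0 * cycU (ZMod 11) 2 * cycU (ZMod 11) 3 * cycU (ZMod 11) 4 := by
  simp [cycE, Fin.prod_univ_five]

theorem cycE11_2_eq : cycE (ZMod 11) 5 2 =
    cycU (ZMod 11) 0 * cycU (ZMod 11) 1 * cycU (ZMod 11) 3 * cycU (ZMod 11) 4 := by
  simp [cycE, Fin.prod_univ_five]

theorem cycE11_3_eq : cycE (ZMod 11) 5 3 =
    cycU (ZMod 11) 0 * cycU (ZMod 11) 1 * cycU (ZMod 11) 2 * cycU (ZMod 11) 4 := by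
  simp [cycE, Fin.prod_univ_five]

theorem cycE11_4_eq : cycE (ZMod 11) 5 4 =
    cycU (ZMod 11) 0 * cycU (ZMod 11) 1 * cycU (ZMod 11) 2 * cycU (ZMod 11) 3 := by
  simp [cycE, Fin.prod_univ_five]

theorem cycP11_0_eq : derivative (cycU (ZMod 11) ((0 : Fin 5) : ℕ)) * cycE (ZMod 11) 5 0 =
    hornerL (ZMod 11) [120, 600, 1450, 2200, 2299, 1717, 923, 351, 90, 14, 1] := by
  have h0 : cycU (ZMod 11) ((0 : Fin 5) : ℕ) = cycU (ZMod 11) 0 := rfl
  rw [h0, cycE11_0_eq, cycU11_0_eq, cycU11_1_eq, cycU11_2_eq, cycU11_3_eq, cycU11_4_eq]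
  simp only [hornerL, derivative_add, derivative_mul, derivative_X, derivative_intCast, Int.cast_ofNat,
    Int.cast_zero, Int.cast_one]
  simp only [derivative_ofNat, derivative_zero, derivative_one]
  ring

theorem cycP11_1_eq : derivative (cycU (ZMod 11) ((1 : Fin 5) : ℕ)) * cycE (ZMod 11) 5 1 =
    hornerL (ZMod 11) [60, 330, 860, 1395, 1552, 1232, 704, 285, 78, 13, 1] := by
  have h0 : cycU (ZMod 11) ((1 : Fin 5) : ℕ) = cycU (ZMod 11) 1 := rfl
  rw [h0, cycE11_1_eq, cycU11_0_eq, cycU11_1_eq, cycU11_2_eq, cycU11_3_eq, cycU11_4_eq]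
  simp only [hornerL, derivative_add, derivative_mul, derivative_X, derivative_intCast, Int.cast_ofNat,
    Int.cast_zero, Int.cast_one]
  simp only [derivative_ofNat, derivative_zero, derivative_one]
  ring

theorem cycP11_2_eq : derivative (cycU (ZMod 11) ((2 : Fin 5) : ℕ)) * cycE (ZMod 11) 5 2 =
    hornerL (ZMod 11) [120, 680, 1810, 2980, 3349, 2673, 1528, 615, 166, 27, 2] := by
  have h0 : cycU (ZMod 11) ((2 : Fin 5) : ℕ) = cycU (ZMod 11) 2 := rfl
  rw [h0, cycE11_2_eq, cycU11_0_eq, cycU11_1_eq, cycU11_2_eq, cycU11_3_eq, cycU11_4_eq]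
  simp only [hornerL, derivative_add, derivative_mul, derivative_X, derivative_intCast, Int.cast_ofNat,
    Int.cast_zero, Int.cast_one]
  simp only [derivative_ofNat, derivative_zero, derivative_one]
  ring

theorem cycP11_3_eq : derivative (cycU (ZMod 11) ((3 : Fin 5) : ℕ)) * cycE (ZMod 11) 5 3 =
    hornerL (ZMod 11) [180, 1050, 2850, 4745, 5356, 4268, 2422, 963, 256, 41, 3] := by
  have h0 : cycU (ZMod 11) ((3 : Fin 5) : ℕ) = cycU (ZMod 11) 3 := rfl
  rw [h0, cycE11_3_eq, cycU11_0_eq, cycU11_1_eq, cycU11_2_eq, cycU11_3_eq, cycU11_4_eq]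
  simp only [hornerL, derivative_add, derivative_mul, derivative_X, derivative_intCast, Int.cast_ofNat,
    Int.cast_zero, Int.cast_one]
  simp only [derivative_ofNat, derivative_zero, derivative_one]
  ring

theorem cycP11_4_eq : derivative (cycU (ZMod 11) ((4 : Fin 5) : ℕ)) * cycE (ZMod 11) 5 4 =
    hornerL (ZMod 11) [240, 1440, 3980, 6676, 7524, 5950, 3341, 1314, 346, 55, 4] := by
  have h0 : cycU (ZMod 11) ((4 : Fin 5) : ℕ) = cycU (ZMod 11) 4 := rfl
  rw [h0, cycE11_4_eq, cycU11_0_eq, cycU11_1_eq, cycU11_2_eq, cycU11_3_eq, cycU11_4_eq]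
  simp only [hornerL, derivative_add, derivative_mul, derivative_X, derivative_intCast, Int.cast_ofNat,
    Int.cast_zero, Int.cast_one]
  simp only [derivative_ofNat, derivative_zero, derivative_one]
  ring

/-- **the finite check for `p = 11`**: the logarithmic derivatives of the `cycU k` are
independent modulo `X ^ 9`. -/
theorem indep_eleven : IndepStatement 11 5 := by
  intro g h
  have h' : (X : (ZMod 11)[X]) ^ 9 ∣
      ∑ k : Fin 5, C (g k) * (derivative (cycU (ZMod 11) k) * cycE (ZMod 11) 5 k) := h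
  clear h
  rw [Fin.sum_univ_five, cycP11_0_eq, cycP11_1_eq, cycP11_2_eq, cycP11_3_eq, cycP11_4_eq] at h'
  have hp : ((11 : ℕ) : ZMod 11) = 0 := ZMod.natCast_self 11
  have hp' : (11 : ZMod 11) = 0 := by exact_mod_cast hp
  have e0 := Polynomial.X_pow_dvd_iff.mp h' 0 (by norm_num)
  simp only [coeff_add, coeff_C_mul, coeff_hornerL, List.getD_cons_succ, List.getD_cons_zero,
    Int.cast_ofNat, Int.cast_zero, Int.cast_one] at e0
  have e1 := Polynomial.X_pow_dvd_iff.mp h' 1 (by norm_num)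
  simp only [coeff_add, coeff_C_mul, coeff_hornerL, List.getD_cons_succ, List.getD_cons_zero,
    Int.cast_ofNat, Int.cast_zero, Int.cast_one] at e1
  have e3 := Polynomial.X_pow_dvd_iff.mp h' 3 (by norm_num)
  simp only [coeff_add, coeff_C_mul, coeff_hornerL, List.getD_cons_succ, List.getD_cons_zero,
    Int.cast_ofNat, Int.cast_zero, Int.cast_one] at e3
  have e5 := Polynomial.X_pow_dvd_iff.mp h' 5 (by norm_num)
  simp only [coeff_add, coeff_C_mul, coeff_hornerL, List.getD_cons_succ, List.getD_cons_zero,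
    Int.cast_ofNat, Int.cast_zero, Int.cast_one] at e5
  have e7 := Polynomial.X_pow_dvd_iff.mp h' 7 (by norm_num)
  simp only [coeff_add, coeff_C_mul, coeff_hornerL, List.getD_cons_succ, List.getD_cons_zero,
    Int.cast_ofNat, Int.cast_zero, Int.cast_one] at e7
  intro k
  fin_cases k
  · show g 0 = 0
    linear_combination 5 * e1 + 10 * e3 + 6 * e5 + 2 * e7 - (3273 * g 0 + 2142 * g 1 + 4588 * g 2 + 7294 * g 3 + 10208 * g 4) * hp'
  · show g 1 = 0
    linear_combination 8 * e0 + 3 * e1 + 9 * e3 + 10 * e7 - (2370 * g 0 + 1534 * g 1 + 3270 * g 2 + 5175 * g 3 + 7224 * g 4) * hp'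
  · show g 2 = 0
    linear_combination 1 * e0 + 10 * e1 + 5 * e3 + 2 * e5 + 6 * e7 - (2060 * g 0 + 1319 * g 1 + 2805 * g 2 + 4429 * g 3 + 6164 * g 4) * hp'
  · show g 3 = 0
    linear_combination 7 * e0 + 8 * e1 + 3 * e3 + 10 * e5 + 7 * e7 - (2897 * g 0 + 1960 * g 1 + 4205 * g 2 + 6665 * g 3 + 9266 * g 4) * hp'
  · show g 4 = 0
    linear_combination 5 * e1 + 10 * e3 + 5 * e5 + 2 * e7 - (3117 * g 0 + 2030 * g 1 + 4345 * g 2 + 6906 * g 3 + 9667 * g 4) * hp'

end Fermat.Agent.Kummer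

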