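import Mathlib
import Fermat.Agent.Kummer.KLDefs

/-!
# Item 80b (iii): the finite check `IndepStatement 13 6` (generated file)
-/

set_option autoImplicit false
set_option maxHeartbeats 1600000
set_option linter.unusedSimpArgs false
set_option linter.unusedTactic false
set_option linter.unreachableTactic false

open Polynomial

namespace Fermat.Agent.Kummer

private lemma kl13_char : (13 : (ZMod 13)[X]) = 0 := by
  have := CharP.cast_eq_zero (ZMod 13)[X] 13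
  exact_mod_cast this

private lemma kl13_char0 : (13 : (ZMod 13)) = 0 := by decide

private lemma kl13_U0 : cycU (ZMod 13) ((0 : Fin 6) : ℕ) = 1 + X := by
  have e : ((0 : Fin 6) : ℕ) = 0 := rfl
  rw [e, cycU_zero]

private lemma kl13_D0 : derivative (cycU (ZMod 13) ((0 : Fin 6) : ℕ)) = 1 := by
  rw [kl13_U0]
  simp only [derivative_add, derivative_mul, derivative_X_pow, derivative_X, derivative_ofNat,
    derivative_one, Nat.cast_ofNat, C_ofNat]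
  norm_num
  try ring

private lemma kl13_U1 : cycU (ZMod 13) ((1 : Fin 6) : ℕ) = 2 + X := by
  have e : ((1 : Fin 6) : ℕ) = 1 := rfl
  rw [e, cycU_succ]
  simp only [Finset.sum_range_succ, Finset.sum_range_zero]
  ring

private lemma kl13_D1 : derivative (cycU (ZMod 13) ((1 : Fin 6) : ℕ)) = 1 := by
  rw [kl13_U1]
  simp only [derivative_add, derivative_mul, derivative_X_pow, derivative_X, derivative_ofNat,
    derivative_one, Nat.cast_ofNat, C_ofNat]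
  norm_num
  try ring

private lemma kl13_U2 : cycU (ZMod 13) ((2 : Fin 6) : ℕ) = 3 + 3 * X + X ^ 2 := by
  have e : ((2 : Fin 6) : ℕ) = 2 := rfl
  rw [e, cycU_succ]
  simp only [Finset.sum_range_succ, Finset.sum_range_zero]
  ring

private lemma kl13_D2 : derivative (cycU (ZMod 13) ((2 : Fin 6) : ℕ)) = 3 + 2 * X := by
  rw [kl13_U2]
  simp only [derivative_add, derivative_mul, derivative_X_pow, derivative_X, derivative_ofNat,
    derivative_one, Nat.cast_ofNat, C_ofNat]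
  norm_num
  try ring

private lemma kl13_U3 : cycU (ZMod 13) ((3 : Fin 6) : ℕ) = 4 + 6 * X + 4 * X ^ 2 + X ^ 3 := by
  have e : ((3 : Fin 6) : ℕ) = 3 := rfl
  rw [e, cycU_succ]
  simp only [Finset.sum_range_succ, Finset.sum_range_zero]
  ring

private lemma kl13_D3 : derivative (cycU (ZMod 13) ((3 : Fin 6) : ℕ)) = 6 + 8 * X + 3 * X ^ 2 := by
  rw [kl13_U3]
  simp only [derivative_add, derivative_mul, derivative_X_pow, derivative_X, derivative_ofNat,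
    derivative_one, Nat.cast_ofNat, C_ofNat]
  norm_num
  try ring

private lemma kl13_U4 : cycU (ZMod 13) ((4 : Fin 6) : ℕ) = 5 + 10 * X + 10 * X ^ 2 + 5 * X ^ 3 + X ^ 4 := by
  have e : ((4 : Fin 6) : ℕ) = 4 := rfl
  rw [e, cycU_succ]
  simp only [Finset.sum_range_succ, Finset.sum_range_zero]
  ring

private lemma kl13_D4 : derivative (cycU (ZMod 13) ((4 : Fin 6) : ℕ)) = 10 + 20 * X + 15 * X ^ 2 + 4 * X ^ 3 := by
  rw [kl13_U4]
  simp only [derivative_add, derivative_mul, derivative_X_pow, derivative_X, derivative_ofNat,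
    derivative_one, Nat.cast_ofNat, C_ofNat]
  norm_num
  try ring

private lemma kl13_U5 : cycU (ZMod 13) ((5 : Fin 6) : ℕ) = 6 + 15 * X + 20 * X ^ 2 + 15 * X ^ 3 + 6 * X ^ 4 + X ^ 5 := by
  have e : ((5 : Fin 6) : ℕ) = 5 := rfl
  rw [e, cycU_succ]
  simp only [Finset.sum_range_succ, Finset.sum_range_zero]
  ring

private lemma kl13_D5 : derivative (cycU (ZMod 13) ((5 : Fin 6) : ℕ)) = 15 + 40 * X + 45 * X ^ 2 + 24 * X ^ 3 + 5 * X ^ 4 := by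
  rw [kl13_U5]
  simp only [derivative_add, derivative_mul, derivative_X_pow, derivative_X, derivative_ofNat,
    derivative_one, Nat.cast_ofNat, C_ofNat]
  norm_num
  try ring

private lemma kl13_E0 : cycE (ZMod 13) 6 0 = (2 + X) * (3 + 3 * X + X ^ 2) * (4 + 6 * X + 4 * X ^ 2 + X ^ 3) * (5 + 10 * X + 10 * X ^ 2 + 5 * X ^ 3 + X ^ 4) * (6 + 15 * X + 20 * X ^ 2 + 15 * X ^ 3 + 6 * X ^ 4 + X ^ 5) := by
  rw [cycE]
  simp only [Fin.prod_univ_six]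
  simp only [kl13_U0, kl13_U1, kl13_U2, kl13_U3, kl13_U4, kl13_U5]
  simp (decide := true) only [if_true, if_false, Fin.reduceEq, one_mul, mul_one, Fin.isValue]
  try ring

private lemma kl13_E1 : cycE (ZMod 13) 6 1 = (1 + X) * (3 + 3 * X + X ^ 2) * (4 + 6 * X + 4 * X ^ 2 + X ^ 3) * (5 + 10 * X + 10 * X ^ 2 + 5 * X ^ 3 + X ^ 4) * (6 + 15 * X + 20 * X ^ 2 + 15 * X ^ 3 + 6 * X ^ 4 + X ^ 5) := by
  rw [cycE]
  simp only [Fin.prod_univ_six]
  simp only [kl13_U0, kl13_U1, kl13_U2, kl13_U3, kl13_U4, kl13_U5]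
  simp (decide := true) only [if_true, if_false, Fin.reduceEq, one_mul, mul_one, Fin.isValue]
  try ring

private lemma kl13_E2 : cycE (ZMod 13) 6 2 = (1 + X) * (2 + X) * (4 + 6 * X + 4 * X ^ 2 + X ^ 3) * (5 + 10 * X + 10 * X ^ 2 + 5 * X ^ 3 + X ^ 4) * (6 + 15 * X + 20 * X ^ 2 + 15 * X ^ 3 + 6 * X ^ 4 + X ^ 5) := by
  rw [cycE]
  simp only [Fin.prod_univ_six]
  simp only [kl13_U0, kl13_U1, kl13_U2, kl13_U3, kl13_U4, kl13_U5]
  simp (decide := true) only [if_true, if_false, Fin.reduceEq, one_mul, mul_one, Fin.isValue]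
  try ring

private lemma kl13_E3 : cycE (ZMod 13) 6 3 = (1 + X) * (2 + X) * (3 + 3 * X + X ^ 2) * (5 + 10 * X + 10 * X ^ 2 + 5 * X ^ 3 + X ^ 4) * (6 + 15 * X + 20 * X ^ 2 + 15 * X ^ 3 + 6 * X ^ 4 + X ^ 5) := by
  rw [cycE]
  simp only [Fin.prod_univ_six]
  simp only [kl13_U0, kl13_U1, kl13_U2, kl13_U3, kl13_U4, kl13_U5]
  simp (decide := true) only [if_true, if_false, Fin.reduceEq, one_mul, mul_one, Fin.isValue]
  try ring

private lemma kl13_E4 : cycE (ZMod 13) 6 4 = (1 + X) * (2 + X) * (3 + 3 * X + X ^ 2) * (4 + 6 * X + 4 * X ^ 2 + X ^ 3) * (6 + 15 * X + 20 * X ^ 2 + 15 * X ^ 3 + 6 * X ^ 4 + X ^ 5) := by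
  rw [cycE]
  simp only [Fin.prod_univ_six]
  simp only [kl13_U0, kl13_U1, kl13_U2, kl13_U3, kl13_U4, kl13_U5]
  simp (decide := true) only [if_true, if_false, Fin.reduceEq, one_mul, mul_one, Fin.isValue]
  try ring

private lemma kl13_E5 : cycE (ZMod 13) 6 5 = (1 + X) * (2 + X) * (3 + 3 * X + X ^ 2) * (4 + 6 * X + 4 * X ^ 2 + X ^ 3) * (5 + 10 * X + 10 * X ^ 2 + 5 * X ^ 3 + X ^ 4) := by
  rw [cycE]
  simp only [Fin.prod_univ_six]
  simp only [kl13_U0, kl13_U1, kl13_U2, kl13_U3, kl13_U4, kl13_U5]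
  simp (decide := true) only [if_true, if_false, Fin.reduceEq, one_mul, mul_one, Fin.isValue]
  try ring

private lemma kl13_P0 : derivative (cycU (ZMod 13) ((0 : Fin 6) : ℕ)) * cycE (ZMod 13) 6 0 =
    5 + 5 * X + 2 * X ^ 2 + 12 * X ^ 6 + 2 * X ^ 7 + 8 * X ^ 9 + 2 * X ^ 10 + 7 * X ^ 11 + 3 * X ^ 12 + 7 * X ^ 13 + 7 * X ^ 14 + X ^ 15 := by
  rw [kl13_D0, kl13_E0]
  linear_combination (55 + 415 * X + 1546 * X ^ 2 + 3750 * X ^ 3 + 6578 * X ^ 4 + 8789 * X ^ 5 + 9197 * X ^ 6 + 7648 * X ^ 7 + 5078 * X ^ 8 + 2684 * X ^ 9 + 1118 * X ^ 10 + 359 * X ^ 11 + 86 * X ^ 12 + 14 * X ^ 13 + X ^ 14) * kl13_char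

private lemma kl13_P1 : derivative (cycU (ZMod 13) ((1 : Fin 6) : ℕ)) * cycE (ZMod 13) 6 1 =
    9 + 7 * X + X ^ 3 + 6 * X ^ 4 + 10 * X ^ 5 + X ^ 6 + X ^ 8 + 10 * X ^ 9 + 11 * X ^ 11 + 6 * X ^ 12 + 2 * X ^ 13 + 6 * X ^ 14 + X ^ 15 := by
  rw [kl13_D1, kl13_E1]
  linear_combination (27 + 221 * X + 870 * X ^ 2 + 2213 * X ^ 3 + 4057 * X ^ 4 + 5654 * X ^ 5 + 6166 * X ^ 6 + 5340 * X ^ 7 + 3693 * X ^ 8 + 2034 * X ^ 9 + 884 * X ^ 10 + 296 * X ^ 11 + 74 * X ^ 12 + 13 * X ^ 13 + X ^ 14) * kl13_char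

private lemma kl13_P2 : derivative (cycU (ZMod 13) ((2 : Fin 6) : ℕ)) * cycE (ZMod 13) 6 2 =
    5 + 4 * X + 8 * X ^ 2 + 6 * X ^ 3 + 10 * X ^ 4 + X ^ 5 + 12 * X ^ 6 + X ^ 7 + 2 * X ^ 8 + 7 * X ^ 9 + 12 * X ^ 10 + 10 * X ^ 11 + 2 * X ^ 12 + 7 * X ^ 13 + 2 * X ^ 15 := by
  rw [kl13_D2, kl13_E2]
  linear_combination (55 + 452 * X + 1804 * X ^ 2 + 4648 * X ^ 3 + 8608 * X ^ 4 + 12094 * X ^ 5 + 13267 * X ^ 6 + 11538 * X ^ 7 + 7996 * X ^ 8 + 4404 * X ^ 9 + 1907 * X ^ 10 + 636 * X ^ 11 + 158 * X ^ 12 + 27 * X ^ 13 + 3 * X ^ 14) * kl13_char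

private lemma kl13_P3 : derivative (cycU (ZMod 13) ((3 : Fin 6) : ℕ)) * cycE (ZMod 13) 6 3 =
    1 + 4 * X + 11 * X ^ 2 + 7 * X ^ 3 + 3 * X ^ 4 + 10 * X ^ 5 + 8 * X ^ 6 + 6 * X ^ 7 + X ^ 8 + 4 * X ^ 9 + 11 * X ^ 10 + 9 * X ^ 11 + 2 * X ^ 12 + X ^ 13 + 7 * X ^ 14 + 3 * X ^ 15 := by
  rw [kl13_D3, kl13_E3]
  linear_combination (83 + 692 * X + 2803 * X ^ 2 + 7301 * X ^ 3 + 13626 * X ^ 4 + 19236 * X ^ 5 + 21153 * X ^ 6 + 18394 * X ^ 7 + 12717 * X ^ 8 + 6972 * X ^ 9 + 2999 * X ^ 10 + 992 * X ^ 11 + 244 * X ^ 12 + 42 * X ^ 13 + 4 * X ^ 14) * kl13_char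

private lemma kl13_P4 : derivative (cycU (ZMod 13) ((4 : Fin 6) : ℕ)) * cycE (ZMod 13) 6 4 =
    10 + 7 * X + 9 * X ^ 2 + 11 * X ^ 3 + X ^ 4 + 11 * X ^ 5 + 7 * X ^ 6 + 3 * X ^ 7 + 5 * X ^ 8 + X ^ 9 + 6 * X ^ 10 + 12 * X ^ 11 + 5 * X ^ 12 + 8 * X ^ 13 + X ^ 14 + 4 * X ^ 15 := by
  rw [kl13_D4, kl13_E4]
  linear_combination (110 + 941 * X + 3867 * X ^ 2 + 10165 * X ^ 3 + 19071 * X ^ 4 + 26973 * X ^ 5 + 29633 * X ^ 6 + 25684 * X ^ 7 + 17667 * X ^ 8 + 9626 * X ^ 9 + 4113 * X ^ 10 + 1351 * X ^ 11 + 330 * X ^ 12 + 56 * X ^ 13 + 6 * X ^ 14) * kl13_char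

private lemma kl13_P5 : derivative (cycU (ZMod 13) ((5 : Fin 6) : ℕ)) * cycE (ZMod 13) 6 5 =
    6 + 2 * X ^ 2 + X ^ 3 + 6 * X ^ 4 + X ^ 5 + 6 * X ^ 6 + 4 * X ^ 7 + 11 * X ^ 8 + 5 * X ^ 9 + 3 * X ^ 10 + 6 * X ^ 11 + 8 * X ^ 12 + 2 * X ^ 13 + 8 * X ^ 14 + 5 * X ^ 15 := by
  rw [kl13_D5, kl13_E5]
  linear_combination (138 + 1200 * X + 4996 * X ^ 2 + 13233 * X ^ 3 + 24893 * X ^ 4 + 35173 * X ^ 5 + 38503 * X ^ 6 + 33204 * X ^ 7 + 22711 * X ^ 8 + 12305 * X ^ 9 + 5231 * X ^ 10 + 1711 * X ^ 11 + 416 * X ^ 12 + 71 * X ^ 13 + 7 * X ^ 14) * kl13_char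

theorem indep_thirteen : IndepStatement 13 6 := by
  intro g h
  rw [Fin.sum_univ_six, kl13_P0, kl13_P1, kl13_P2, kl13_P3, kl13_P4, kl13_P5, X_pow_dvd_iff] at h
  have e0 : 5 * g 0 + 9 * g 1 + 5 * g 2 + 1 * g 3 + 10 * g 4 + 6 * g 5 = 0 := by
    have := h 0 (by norm_num)
    simp only [coeff_add, coeff_C_mul, coeff_ofNat_mul, coeff_X_pow, coeff_X, coeff_ofNat_zero,
      coeff_ofNat_succ, coeff_one, coeff_mul_X_pow', coeff_zero] at this
    norm_num at this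
    linear_combination this
  have e1 : 5 * g 0 + 7 * g 1 + 4 * g 2 + 4 * g 3 + 7 * g 4 = 0 := by
    have := h 1 (by norm_num)
    simp only [coeff_add, coeff_C_mul, coeff_ofNat_mul, coeff_X_pow, coeff_X, coeff_ofNat_zero,
      coeff_ofNat_succ, coeff_one, coeff_mul_X_pow', coeff_zero] at this
    norm_num at this
    linear_combination this
  have e3 : 1 * g 1 + 6 * g 2 + 7 * g 3 + 11 * g 4 + 1 * g 5 = 0 := by
    have := h 3 (by norm_num)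
    simp only [coeff_add, coeff_C_mul, coeff_ofNat_mul, coeff_X_pow, coeff_X, coeff_ofNat_zero,
      coeff_ofNat_succ, coeff_one, coeff_mul_X_pow', coeff_zero] at this
    norm_num at this
    linear_combination this
  have e5 : 10 * g 1 + 1 * g 2 + 10 * g 3 + 11 * g 4 + 1 * g 5 = 0 := by
    have := h 5 (by norm_num)
    simp only [coeff_add, coeff_C_mul, coeff_ofNat_mul, coeff_X_pow, coeff_X, coeff_ofNat_zero,
      coeff_ofNat_succ, coeff_one, coeff_mul_X_pow', coeff_zero] at this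
    norm_num at this
    linear_combination this
  have e7 : 2 * g 0 + 1 * g 2 + 6 * g 3 + 3 * g 4 + 4 * g 5 = 0 := by
    have := h 7 (by norm_num)
    simp only [coeff_add, coeff_C_mul, coeff_ofNat_mul, coeff_X_pow, coeff_X, coeff_ofNat_zero,
      coeff_ofNat_succ, coeff_one, coeff_mul_X_pow', coeff_zero] at this
    norm_num at this
    linear_combination this
  have e9 : 8 * g 0 + 10 * g 1 + 7 * g 2 + 4 * g 3 + 1 * g 4 + 5 * g 5 = 0 := by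
    have := h 9 (by norm_num)
    simp only [coeff_add, coeff_C_mul, coeff_ofNat_mul, coeff_X_pow, coeff_X, coeff_ofNat_zero,
      coeff_ofNat_succ, coeff_one, coeff_mul_X_pow', coeff_zero] at this
    norm_num at this
    linear_combination this
  have hg0 : g 0 = 0 := by
    linear_combination 10 * e0 + 6 * e1 + 10 * e3 + 11 * e5 + 8 * e7 + 6 * e9 + ((-11) * g 0 + (-24) * g 1 + (-15) * g 2 + (-22) * g 3 + (-31) * g 4 + (-11) * g 5) * kl13_char0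
  have hg1 : g 1 = 0 := by
    linear_combination 12 * e0 + 1 * e1 + 5 * e3 + 9 * e5 + 3 * e7 + 9 * e9 + ((-11) * g 0 + (-23) * g 1 + (-13) * g 2 + (-15) * g 3 + (-23) * g 4 + (-11) * g 5) * kl13_char0
  have hg2 : g 2 = 0 := by
    linear_combination 12 * e0 + 10 * e1 + 5 * e3 + 5 * e5 + 7 * e7 + 4 * e9 + ((-12) * g 0 + (-21) * g 1 + (-13) * g 2 + (-15) * g 3 + (-25) * g 4 + (-10) * g 5) * kl13_char0
  have hg3 : g 3 = 0 := by
    linear_combination 10 * e0 + 5 * e1 + 6 * e3 + 12 * e5 + 7 * e7 + 10 * e9 + ((-13) * g 0 + (-27) * g 1 + (-15) * g 2 + (-21) * g 3 + (-28) * g 4 + (-12) * g 5) * kl13_char0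
  have hg4 : g 4 = 0 := by
    linear_combination 11 * e0 + 3 * e1 + 2 * e3 + 5 * e5 + 1 * e9 + ((-6) * g 0 + (-14) * g 1 + (-7) * g 2 + (-7) * g 3 + (-16) * g 4 + (-6) * g 5) * kl13_char0
  have hg5 : g 5 = 0 := by
    linear_combination 11 * e0 + 1 * e1 + 6 * e3 + 4 * e5 + 10 * e7 + 3 * e9 + ((-8) * g 0 + (-14) * g 1 + (-10) * g 2 + (-13) * g 3 + (-20) * g 4 + (-10) * g 5) * kl13_char0
  intro k
  fin_cases k
  · exact hg0
  · exact hg1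
  · exact hg2
  · exact hg3
  · exact hg4
  · exact hg5

end Fermat.Agent.Kummer
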