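import Mathlib
import Fermat.Agent.Kummer.KLDataLib

/-!
# Item 80b (iii): the finite independence check for `p = 5`
-/

set_option autoImplicit false
set_option linter.unusedSimpArgs false

open Polynomial

namespace Fermat.Agent.Kummer

theorem cycU5_0_eq : cycU (ZMod 5) 0 = hornerL (ZMod 5) [1, 1] := by
  simp [cycU, hornerL, Finset.sum_range_succ]
  try ring

theorem cycU5_1_eq : cycU (ZMod 5) 1 = hornerL (ZMod 5) [2, 1] := by
  simp [cycU, hornerL, Finset.sum_range_succ]
  try ring

theorem cycE5_0_eq : cycE (ZMod 5) 2 0 =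
    cycU (ZMod 5) 1 := by
  simp [cycE, Fin.prod_univ_two]

theorem cycE5_1_eq : cycE (ZMod 5) 2 1 =
    cycU (ZMod 5) 0 := by
  simp [cycE, Fin.prod_univ_two]

theorem cycP5_0_eq : derivative (cycU (ZMod 5) ((0 : Fin 2) : ℕ)) * cycE (ZMod 5) 2 0 =
    hornerL (ZMod 5) [2, 1] := by
  have h0 : cycU (ZMod 5) ((0 : Fin 2) : ℕ) = cycU (ZMod 5) 0 := rfl
  rw [h0, cycE5_0_eq, cycU5_0_eq, cycU5_1_eq]
  simp only [hornerL, derivative_add, derivative_mul, derivative_X, derivative_intCast, Int.cast_ofNat,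
    Int.cast_zero, Int.cast_one]
  simp only [derivative_ofNat, derivative_zero, derivative_one]
  ring

theorem cycP5_1_eq : derivative (cycU (ZMod 5) ((1 : Fin 2) : ℕ)) * cycE (ZMod 5) 2 1 =
    hornerL (ZMod 5) [1, 1] := by
  have h0 : cycU (ZMod 5) ((1 : Fin 2) : ℕ) = cycU (ZMod 5) 1 := rfl
  rw [h0, cycE5_1_eq, cycU5_0_eq, cycU5_1_eq]
  simp only [hornerL, derivative_add, derivative_mul, derivative_X, derivative_intCast, Int.cast_ofNat,
    Int.cast_zero, Int.cast_one]
  simp only [derivative_ofNat, derivative_zero, derivative_one]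
  ring

/-- **the finite check for `p = 5`**: the logarithmic derivatives of the `cycU k` are
independent modulo `X ^ 3`. -/
theorem indep_five : IndepStatement 5 2 := by
  intro g h
  have h' : (X : (ZMod 5)[X]) ^ 3 ∣
      ∑ k : Fin 2, C (g k) * (derivative (cycU (ZMod 5) k) * cycE (ZMod 5) 2 k) := h
  clear h
  rw [Fin.sum_univ_two, cycP5_0_eq, cycP5_1_eq] at h'
  have hp : ((5 : ℕ) : ZMod 5) = 0 := ZMod.natCast_self 5
  have hp' : (5 : ZMod 5) = 0 := by exact_mod_cast hp
  have e0 := Polynomial.X_pow_dvd_iff.mp h' 0 (by norm_num)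
  simp only [coeff_add, coeff_C_mul, coeff_hornerL, List.getD_cons_succ, List.getD_cons_zero,
    Int.cast_ofNat, Int.cast_zero, Int.cast_one] at e0
  have e1 := Polynomial.X_pow_dvd_iff.mp h' 1 (by norm_num)
  simp only [coeff_add, coeff_C_mul, coeff_hornerL, List.getD_cons_succ, List.getD_cons_zero,
    Int.cast_ofNat, Int.cast_zero, Int.cast_one] at e1
  intro k
  fin_cases k
  · show g 0 = 0
    linear_combination 1 * e0 + 4 * e1 - (1 * g 0 + 1 * g 1) * hp'
  · show g 1 = 0
    linear_combination 4 * e0 + 2 * e1 - (2 * g 0 + 1 * g 1) * hp'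

end Fermat.Agent.Kummer

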