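import Mathlib
import Fermat.Agent.Kummer.KLDataLib

/-!
# Item 80b (iii): the finite independence check for `p = 7`
-/

set_option autoImplicit false
set_option linter.unusedSimpArgs false

open Polynomial

namespace Fermat.Agent.Kummer

theorem cycU7_0_eq : cycU (ZMod 7) 0 = hornerL (ZMod 7) [1, 1] := by
  simp [cycU, hornerL, Finset.sum_range_succ]
  try ring

theorem cycU7_1_eq : cycU (ZMod 7) 1 = hornerL (ZMod 7) [2, 1] := by
  simp [cycU, hornerL, Finset.sum_range_succ]
  try ring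

theorem cycU7_2_eq : cycU (ZMod 7) 2 = hornerL (ZMod 7) [3, 3, 1] := by
  simp [cycU, hornerL, Finset.sum_range_succ]
  try ring

theorem cycE7_0_eq : cycE (ZMod 7) 3 0 =
    cycU (ZMod 7) 1 * cycU (ZMod 7) 2 := by
  simp [cycE, Fin.prod_univ_three]

theorem cycE7_1_eq : cycE (ZMod 7) 3 1 =
    cycU (ZMod 7) 0 * cycU (ZMod 7) 2 := by
  simp [cycE, Fin.prod_univ_three]

theorem cycE7_2_eq : cycE (ZMod 7) 3 2 =
    cycU (ZMod 7) 0 * cycU (ZMod 7) 1 := by
  simp [cycE, Fin.prod_univ_three]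

theorem cycP7_0_eq : derivative (cycU (ZMod 7) ((0 : Fin 3) : ℕ)) * cycE (ZMod 7) 3 0 =
    hornerL (ZMod 7) [6, 9, 5, 1] := by
  have h0 : cycU (ZMod 7) ((0 : Fin 3) : ℕ) = cycU (ZMod 7) 0 := rfl
  rw [h0, cycE7_0_eq, cycU7_0_eq, cycU7_1_eq, cycU7_2_eq]
  simp only [hornerL, derivative_add, derivative_mul, derivative_X, derivative_intCast, Int.cast_ofNat,
    Int.cast_zero, Int.cast_one]
  simp only [derivative_ofNat, derivative_zero, derivative_one]
  ring

theorem cycP7_1_eq : derivative (cycU (ZMod 7) ((1 : Fin 3) : ℕ)) * cycE (ZMod 7) 3 1 =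
    hornerL (ZMod 7) [3, 6, 4, 1] := by
  have h0 : cycU (ZMod 7) ((1 : Fin 3) : ℕ) = cycU (ZMod 7) 1 := rfl
  rw [h0, cycE7_1_eq, cycU7_0_eq, cycU7_1_eq, cycU7_2_eq]
  simp only [hornerL, derivative_add, derivative_mul, derivative_X, derivative_intCast, Int.cast_ofNat,
    Int.cast_zero, Int.cast_one]
  simp only [derivative_ofNat, derivative_zero, derivative_one]
  ring

theorem cycP7_2_eq : derivative (cycU (ZMod 7) ((2 : Fin 3) : ℕ)) * cycE (ZMod 7) 3 2 =
    hornerL (ZMod 7) [6, 13, 9, 2] := by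
  have h0 : cycU (ZMod 7) ((2 : Fin 3) : ℕ) = cycU (ZMod 7) 2 := rfl
  rw [h0, cycE7_2_eq, cycU7_0_eq, cycU7_1_eq, cycU7_2_eq]
  simp only [hornerL, derivative_add, derivative_mul, derivative_X, derivative_intCast, Int.cast_ofNat,
    Int.cast_zero, Int.cast_one]
  simp only [derivative_ofNat, derivative_zero, derivative_one]
  ring

/-- **the finite check for `p = 7`**: the logarithmic derivatives of the `cycU k` are
independent modulo `X ^ 5`. -/
theorem indep_seven : IndepStatement 7 3 := by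
  intro g h
  have h' : (X : (ZMod 7)[X]) ^ 5 ∣
      ∑ k : Fin 3, C (g k) * (derivative (cycU (ZMod 7) k) * cycE (ZMod 7) 3 k) := h
  clear h
  rw [Fin.sum_univ_three, cycP7_0_eq, cycP7_1_eq, cycP7_2_eq] at h'
  have hp : ((7 : ℕ) : ZMod 7) = 0 := ZMod.natCast_self 7
  have hp' : (7 : ZMod 7) = 0 := by exact_mod_cast hp
  have e0 := Polynomial.X_pow_dvd_iff.mp h' 0 (by norm_num)
  simp only [coeff_add, coeff_C_mul, coeff_hornerL, List.getD_cons_succ, List.getD_cons_zero,
    Int.cast_ofNat, Int.cast_zero, Int.cast_one] at e0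
  have e1 := Polynomial.X_pow_dvd_iff.mp h' 1 (by norm_num)
  simp only [coeff_add, coeff_C_mul, coeff_hornerL, List.getD_cons_succ, List.getD_cons_zero,
    Int.cast_ofNat, Int.cast_zero, Int.cast_one] at e1
  have e3 := Polynomial.X_pow_dvd_iff.mp h' 3 (by norm_num)
  simp only [coeff_add, coeff_C_mul, coeff_hornerL, List.getD_cons_succ, List.getD_cons_zero,
    Int.cast_ofNat, Int.cast_zero, Int.cast_one] at e3
  intro k
  fin_cases k
  · show g 0 = 0
    linear_combination 5 * e0 + 6 * e3 - (5 * g 0 + 3 * g 1 + 6 * g 2) * hp'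
  · show g 1 = 0
    linear_combination 4 * e0 + 5 * e1 + 1 * e3 - (10 * g 0 + 6 * g 1 + 13 * g 2) * hp'
  · show g 2 = 0
    linear_combination 6 * e0 + 1 * e1 + 4 * e3 - (7 * g 0 + 4 * g 1 + 8 * g 2) * hp'

end Fermat.Agent.Kummer

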