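import Fermat.Agent.Kummer.PIDLib

/-!
# Item 80d: `ℤ[ζ₁₁]` is a PID
-/

set_option autoImplicit false
set_option linter.style.longLine false

open NumberField Polynomial Ideal Module InfinitePlace Nat Real

namespace Fermat.Agent.Kummer

section

variable (K : Type*) [Field K] [NumberField K] [IsCyclotomicExtension {11} ℚ K]

theorem zetaInt_eleven_sum :
    1 + zetaInt 11 K + zetaInt 11 K ^ 2 + zetaInt 11 K ^ 3 + zetaInt 11 K ^ 4 + zetaInt 11 K ^ 5
      + zetaInt 11 K ^ 6 + zetaInt 11 K ^ 7 + zetaInt 11 K ^ 8 + zetaInt 11 K ^ 9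
      + zetaInt 11 K ^ 10 = 0 := by
  have h := (IsCyclotomicExtension.zeta_spec 11 ℚ K).toInteger_isPrimitiveRoot.geom_sum_eq_zero
    (by norm_num)
  simpa [Finset.sum_range_succ] using h

theorem eval_eleven_23 : (0 + 13 ^ 0 + 13 ^ 1 + 13 ^ 2 + 13 ^ 3 + 13 ^ 4 + 13 ^ 5 + 13 ^ 6
    + 13 ^ 7 + 13 ^ 8 + 13 ^ 9 + 13 ^ 10 : ZMod 23) = 0 := by
  decide

theorem exists_principal_eleven_23 :
    ∃ P ∈ primesOver (span {((23 : ℕ) : ℤ)}) (𝓞 K), Submodule.IsPrincipal P := by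
  have : Fact (Nat.Prime 23) := ⟨by norm_num⟩
  have : Fact (Nat.Prime 11) := ⟨by norm_num⟩
  have hΦ := zetaInt_eleven_sum K
  set ζ := zetaInt 11 K with hζ
  have hQ : (X - C 13 : ℤ[X]).map (Int.castRingHom (ZMod 23)) = X - C (13 : ZMod 23) := by
    rw [Polynomial.map_sub, map_X, map_C, map_ofNat]
  have hev : aeval ζ (X - C 13 : ℤ[X]) = ζ - 13 := by
    rw [map_sub, aeval_X, aeval_C, map_ofNat]
  refine exists_isPrincipal_primesOver 11 K 23 (X - C 13) ?_ ?_ ?_ (1 - ζ + ζ ^ 3) ?_ ?_ ?_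
  · rw [hQ]
    exact irreducible_X_sub_C _
  · rw [hQ]
    exact monic_X_sub_C _
  · rw [hQ, dvd_iff_isRoot, cyclotomic_prime, IsRoot.def]
    simp only [Finset.sum_range_succ, Finset.sum_range_zero, eval_add, eval_pow, eval_X,
      eval_zero]
    exact eval_eleven_23
  · refine ⟨8 - 2 * ζ - ζ ^ 2 - 8 * ζ ^ 3 - 5 * ζ ^ 4 - 3 * ζ ^ 5 + 6 * ζ ^ 6 + 12 * ζ ^ 7
      + 16 * ζ ^ 8 + 11 * ζ ^ 9, ?_⟩
    push_cast
    linear_combination (-(-15 + 5 * ζ + 11 * ζ ^ 2)) * hΦ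
  · rw [hev]
    refine ⟨-5 + ζ + 4 * ζ ^ 3 + 2 * ζ ^ 4 + ζ ^ 5 - 4 * ζ ^ 6 - 7 * ζ ^ 7 - 9 * ζ ^ 8
      - 6 * ζ ^ 9, ?_⟩
    linear_combination (-(8 - 3 * ζ - 6 * ζ ^ 2)) * hΦ
  · rw [hev, Ideal.mem_span_pair]
    refine ⟨95, ζ ^ 2 + 13 * ζ + 168, ?_⟩
    push_cast
    ring

end

theorem floor_minkowski_eleven (K : Type*) [Field K] [NumberField K]
    [IsCyclotomicExtension {11} ℚ K] :
    ⌊(4 / π) ^ nrComplexPlaces K *
      ((finrank ℚ K)! / (finrank ℚ K) ^ (finrank ℚ K) * √|discr K|)⌋₊ ≤ 66 := by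
  have : Fact (Nat.Prime 11) := ⟨by norm_num⟩
  rw [IsCyclotomicExtension.Rat.discr_prime 11 K, IsCyclotomicExtension.finrank (n := 11) K
    (cyclotomic.irreducible_rat (by norm_num)),
    IsCyclotomicExtension.Rat.nrComplexPlaces_eq_totient_div_two 11,
    Nat.totient_prime (by norm_num)]
  apply Nat.le_of_lt_succ
  rw [Nat.floor_lt (by positivity)]
  have h1 : (4 / π : ℝ) < 4 / 3.14 := by
    apply div_lt_div_of_pos_left (by norm_num) (by norm_num) pi_gt_d2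
  have h2 : (4 / π : ℝ) ^ ((11 - 1) / 2) ≤ (4 / 3.14) ^ ((11 - 1) / 2) := by
    apply pow_le_pow_left₀ (by positivity) h1.le
  have h3 : √|(((-1) ^ ((11 - 1) / 2) * (11 : ℕ) ^ (11 - 2) : ℤ) : ℝ)| < 48559 := by
    rw [Real.sqrt_lt' (by norm_num)]
    norm_num
  refine lt_of_le_of_lt (mul_le_mul h2 (mul_le_mul_of_nonneg_left h3.le (by positivity))
    (by positivity) (by positivity)) ?_
  norm_num [Nat.factorial]


theorem pow_ne_one_eleven_two : ∀ k < 7, 0 < k → ((2 : ℕ) : ZMod 11) ^ k ≠ 1 := by decide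
theorem pow_ne_one_eleven_three : ∀ k < 4, 0 < k → ((3 : ℕ) : ZMod 11) ^ k ≠ 1 := by decide
theorem pow_ne_one_eleven_five : ∀ k < 3, 0 < k → ((5 : ℕ) : ZMod 11) ^ k ≠ 1 := by decide
theorem pow_ne_one_eleven_seven : ∀ k < 3, 0 < k → ((7 : ℕ) : ZMod 11) ^ k ≠ 1 := by decide

/-- **`ℤ[ζ₁₁]` is a PID.** -/
theorem pid_eleven (K : Type*) [Field K] [NumberField K] [IsCyclotomicExtension {11} ℚ K] :
    IsPrincipalIdealRing (𝓞 K) := by
  have : Fact (Nat.Prime 11) := ⟨by norm_num⟩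
  have : IsGalois ℚ K := IsCyclotomicExtension.isGalois {11} ℚ K
  have hM := floor_minkowski_eleven K
  refine RingOfIntegers.isPrincipalIdealRing_of_isPrincipal_of_lt_or_isPrincipal_of_mem_primesOver_of_mem_Icc
    (fun q hq hqp => ?_)
  have hq66 : q ≤ 66 := (Finset.mem_Icc.mp hq).2.trans hM
  have : Fact q.Prime := ⟨hqp⟩
  by_cases h11 : q = 11
  · subst h11
    obtain ⟨⟨P, hP1, hP2⟩⟩ := (span {((11 : ℕ) : ℤ)}).nonempty_primesOver (S := 𝓞 K)
    refine ⟨P, ⟨hP1, hP2⟩, Or.inr ?_⟩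
    rw [IsCyclotomicExtension.Rat.eq_span_zeta_sub_one_of_liesOver' 11 K
      (IsCyclotomicExtension.zeta_spec 11 ℚ K) P]
    exact ⟨⟨_, rfl⟩⟩
  by_cases h23 : q = 23
  · subst h23
    obtain ⟨P, hP, hprinc⟩ := exists_principal_eleven_23 K
    exact ⟨P, hP, Or.inr hprinc⟩
  obtain ⟨⟨P, hP1, hP2⟩⟩ := (span {(q : ℤ)}).nonempty_primesOver (S := 𝓞 K)
  refine ⟨P, ⟨hP1, hP2⟩, Or.inl ?_⟩
  have hq11 : ¬ q ∣ 11 := by
    rw [Nat.dvd_prime (by norm_num)]
    rintro (h | h)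
    · exact hqp.one_lt.ne' h
    · exact h11 h
  have h11q : ¬ 11 ∣ q := by
    rw [Nat.dvd_prime hqp]
    rintro (h | h)
    · norm_num at h
    · exact h11 h.symm
  rw [IsCyclotomicExtension.Rat.inertiaDeg_eq_of_not_dvd q K P hq11]
  refine lt_of_le_of_lt hM ?_
  by_cases hbig : 9 ≤ q
  · refine lt_pow_orderOf h11q 2 (by nlinarith) ?_
    intro k hk hk2
    obtain rfl : k = 1 := by omega
    rw [pow_one]
    intro h1
    have h2 : (q : ZMod 11) = ((1 : ℕ) : ZMod 11) := by simpa using h1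
    rw [ZMod.natCast_eq_natCast_iff'] at h2
    clear hq hM hP1 hP2 h1
    interval_cases q <;> first | omega | (exact absurd hqp (by norm_num))
  · have hq8 : q ≤ 8 := by omega
    have hq2 := hqp.two_le
    clear hq hM hP1 hP2
    interval_cases q
    · exact lt_pow_orderOf h11q 7 (by norm_num) fun k hk hk2 => pow_ne_one_eleven_two k hk2 hk
    · exact lt_pow_orderOf h11q 4 (by norm_num) fun k hk hk2 => pow_ne_one_eleven_three k hk2 hk
    · exact absurd hqp (by norm_num)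
    · exact lt_pow_orderOf h11q 3 (by norm_num) fun k hk hk2 => pow_ne_one_eleven_five k hk2 hk
    · exact absurd hqp (by norm_num)
    · exact lt_pow_orderOf h11q 3 (by norm_num) fun k hk hk2 => pow_ne_one_eleven_seven k hk2 hk
    · exact absurd hqp (by norm_num)

end Fermat.Agent.Kummer
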