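import Mathlib

/-!
# Item 80d: tools for proving that `𝓞 K` is a PID for `K = ℚ(ζ_ℓ)`, `ℓ = 7, 11, 13`

* `lt_pow_orderOf`: lower bound for `q ^ orderOf (q : ZMod ℓ)`.
* `exists_isPrincipal_primesOver`: Kummer–Dedekind with an explicit generator.
-/

set_option autoImplicit false

open NumberField Polynomial Ideal

namespace Fermat.Agent.Kummer

/-- If `q ^ k ≠ 1` in `ZMod ℓ` for `0 < k < f` and `B < q ^ f`, then `B < q ^ orderOf q`. -/
theorem lt_pow_orderOf {ℓ q B : ℕ} [Fact ℓ.Prime] (hqℓ : ¬ ℓ ∣ q) (f : ℕ) (hB : B < q ^ f)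
    (h : ∀ k, 0 < k → k < f → (q : ZMod ℓ) ^ k ≠ 1) : B < q ^ orderOf (q : ZMod ℓ) := by
  have hq0 : (q : ZMod ℓ) ≠ 0 := by
    rwa [Ne, ZMod.natCast_eq_zero_iff]
  have hq1 : 1 ≤ q := by
    rcases Nat.eq_zero_or_pos q with h0 | h0
    · subst h0
      exact absurd (dvd_zero ℓ) hqℓ
    · exact h0
  have hfin : IsOfFinOrder (q : ZMod ℓ) := by
    rw [isOfFinOrder_iff_pow_eq_one]
    exact ⟨ℓ - 1, Nat.sub_pos_of_lt (Fact.out : ℓ.Prime).one_lt, ZMod.pow_card_sub_one_eq_one hq0⟩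
  have hpos : 0 < orderOf (q : ZMod ℓ) := hfin.orderOf_pos
  have hle : f ≤ orderOf (q : ZMod ℓ) := by
    by_contra hlt
    exact h _ hpos (not_le.mp hlt) (pow_orderOf_eq_one _)
  exact lt_of_lt_of_le hB (Nat.pow_le_pow_right hq1 hle)

section KD

variable (ℓ : ℕ) [NeZero ℓ] (K : Type*) [Field K] [NumberField K] [IsCyclotomicExtension {ℓ} ℚ K]

/-- the chosen primitive root of unity in `𝓞 K` -/
noncomputable abbrev zetaInt : 𝓞 K := (IsCyclotomicExtension.zeta_spec ℓ ℚ K).toInteger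

theorem minpoly_zetaInt : minpoly ℤ (zetaInt ℓ K) = cyclotomic ℓ ℤ := by
  rw [cyclotomic_eq_minpoly (IsCyclotomicExtension.zeta_spec ℓ ℚ K) (NeZero.pos _),
    ← (IsCyclotomicExtension.zeta_spec ℓ ℚ K).coe_toInteger, ← RingOfIntegers.minpoly_coe]
  rfl

theorem not_dvd_exponent_zetaInt (q : ℕ) [Fact q.Prime] :
    ¬ q ∣ RingOfIntegers.exponent (zetaInt ℓ K) := by
  rw [RingOfIntegers.exponent_eq_one_iff.mpr <|
    IsCyclotomicExtension.Rat.adjoin_singleton_eq_top (IsCyclotomicExtension.zeta_spec ℓ ℚ K)]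
  exact (Fact.out : q.Prime).not_dvd_one

/-- **Kummer–Dedekind with an explicit generator.**  Let `Q ∈ ℤ[X]` be such that `Q mod q` is a
monic irreducible factor of `Φ_ℓ mod q`.  If `α ∣ q`, `α ∣ Q(ζ)` and `α ∈ (q, Q(ζ))`, then
`(α)` is a prime ideal of `𝓞 K` above `q`. -/
theorem exists_isPrincipal_primesOver (q : ℕ) [Fact q.Prime] (Q : ℤ[X])
    (hirr : Irreducible (Q.map (Int.castRingHom (ZMod q))))
    (hmonic : (Q.map (Int.castRingHom (ZMod q))).Monic)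
    (hdvd : Q.map (Int.castRingHom (ZMod q)) ∣ cyclotomic ℓ (ZMod q))
    (α : 𝓞 K) (h1 : α ∣ (q : 𝓞 K)) (h2 : α ∣ aeval (zetaInt ℓ K) Q)
    (h3 : α ∈ span {(q : 𝓞 K), aeval (zetaInt ℓ K) Q}) :
    ∃ P ∈ primesOver (span {(q : ℤ)}) (𝓞 K), Submodule.IsPrincipal P := by
  classical
  have hexp := not_dvd_exponent_zetaInt ℓ K q
  have hQ : Q.map (Int.castRingHom (ZMod q)) ∈
      RingOfIntegers.monicFactorsMod (zetaInt ℓ K) q := by
    rw [Multiset.mem_toFinset, Polynomial.mem_normalizedFactors_iff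
      (map_monic_ne_zero (minpoly.monic (zetaInt ℓ K).isIntegral))]
    refine ⟨hirr, hmonic, ?_⟩
    rw [minpoly_zetaInt, map_cyclotomic]
    exact hdvd
  have hspan := NumberField.Ideal.primesOverSpanEquivMonicFactorsMod_symm_apply_eq_span hexp hQ
  have hmem := ((NumberField.Ideal.primesOverSpanEquivMonicFactorsMod hexp).symm
    ⟨Q.map (Int.castRingHom (ZMod q)), hQ⟩).2
  rw [hspan] at hmem
  refine ⟨_, hmem, ⟨α, ?_⟩⟩
  apply le_antisymm
  · rw [Ideal.span_le]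
    rintro x (rfl | rfl)
    · exact Ideal.mem_span_singleton.mpr h1
    · exact Ideal.mem_span_singleton.mpr h2
  · rw [Ideal.submodule_span_eq, Ideal.span_le]
    rintro x rfl
    exact h3

end KD

end Fermat.Agent.Kummer
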