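import Mathlib
import Fermat.Agent.Kummer.PIDLib

/-!
# Item 80d, `p = 13`: the Minkowski bound and the primes of large norm

* `pid13_floor_le`: `⌊M K⌋₊ ≤ 306` for `K = ℚ(ζ₁₃)`.
* `pid13_lt_pow_orderOf`: for a prime `q ≤ 306`, `q ∉ {3, 13, 53, 79, 131, 157}`, one has
  `306 < q ^ orderOf (q : ZMod 13)`.
-/

set_option autoImplicit false

open NumberField Polynomial Ideal Module InfinitePlace Nat Real

namespace Fermat.Agent.Kummer

section Bound

variable (K : Type*) [Field K] [NumberField K] [IsCyclotomicExtension {13} ℚ K]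

theorem pid13_floor_le :
    ⌊(4 / π) ^ nrComplexPlaces K *
      ((finrank ℚ K)! / (finrank ℚ K) ^ (finrank ℚ K) * √|discr K|)⌋₊ ≤ 306 := by
  have : Fact (Nat.Prime 13) := ⟨by norm_num⟩
  have hd : discr K = 13 ^ 11 := by
    rw [IsCyclotomicExtension.Rat.discr_prime 13 K]
    norm_num
  have hfin : finrank ℚ K = 12 := by
    rw [IsCyclotomicExtension.finrank (n := 13) K (cyclotomic.irreducible_rat (by norm_num)),
      totient_prime (by norm_num)]
  have hc : nrComplexPlaces K = 6 := by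
    rw [IsCyclotomicExtension.Rat.nrComplexPlaces_eq_totient_div_two 13,
      totient_prime (by norm_num)]
  rw [hd, hfin, hc]
  have h1 : (4 / π) ^ 6 ≤ (4 / 3.1415 : ℝ) ^ 6 := by
    gcongr
    exact Real.pi_gt_d4.le
  have h2 : √|((13 ^ 11 : ℤ) : ℝ)| ≤ 1338717 := by
    rw [Real.sqrt_le_iff]
    refine ⟨by norm_num, ?_⟩
    rw [abs_of_nonneg (by positivity)]
    norm_num
  have h3 : (4 / π) ^ 6 * (((12 : ℕ)! : ℝ) / ((12 : ℕ) : ℝ) ^ 12 * √|((13 ^ 11 : ℤ) : ℝ)|) < 307 := by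
    have h12 : ((12 : ℕ)! : ℝ) = 479001600 := by
      have : (12 : ℕ)! = 479001600 := by decide
      rw [this]; norm_num
    rw [h12]
    calc (4 / π) ^ 6 * ((479001600 : ℝ) / ((12 : ℕ) : ℝ) ^ 12 * √|((13 ^ 11 : ℤ) : ℝ)|)
        ≤ (4 / 3.1415 : ℝ) ^ 6 * ((479001600 : ℝ) / ((12 : ℕ) : ℝ) ^ 12 * 1338717) := by
          gcongr
      _ < 307 := by norm_num
  have h4 : ⌊(4 / π) ^ 6 * (((12 : ℕ)! : ℝ) / ((12 : ℕ) : ℝ) ^ 12 * √|((13 ^ 11 : ℤ) : ℝ)|)⌋₊ < 307 := by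
    rw [Nat.floor_lt (by positivity)]
    exact_mod_cast h3
  omega

end Bound

/-- primes `≡ 1 mod 13` up to `306` -/
theorem pid13_eq_of_cast_eq_one {q : ℕ} (hq : q.Prime) (hq306 : q ≤ 306)
    (h1 : (q : ZMod 13) = 1) : q = 53 ∨ q = 79 ∨ q = 131 ∨ q = 157 := by
  have h2 : ((q : ℕ) : ZMod 13) = ((1 : ℕ) : ZMod 13) := by rw [h1]; simp
  rw [ZMod.natCast_eq_natCast_iff'] at h2
  have h3 : q % 13 = 1 := by simpa using h2
  obtain ⟨k, hk⟩ : ∃ k, q = 13 * k + 1 := ⟨q / 13, by omega⟩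
  have hk23 : k ≤ 23 := by omega
  subst hk
  interval_cases k <;> first | omega | (exfalso; revert hq; norm_num)

theorem pid13_pow_ne_one_two : ∀ k : ℕ, k < 9 → 0 < k → ((2 : ℕ) : ZMod 13) ^ k ≠ 1 := by
  decide

theorem pid13_pow_ne_one_five : ∀ k : ℕ, k < 4 → 0 < k → ((5 : ℕ) : ZMod 13) ^ k ≠ 1 := by
  decide

theorem pid13_pow_ne_one_seven : ∀ k : ℕ, k < 3 → 0 < k → ((7 : ℕ) : ZMod 13) ^ k ≠ 1 := by
  decide

theorem pid13_pow_ne_one_eleven : ∀ k : ℕ, k < 3 → 0 < k → ((11 : ℕ) : ZMod 13) ^ k ≠ 1 := by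
  decide

theorem pid13_pow_ne_one_seventeen :
    ∀ k : ℕ, k < 3 → 0 < k → ((17 : ℕ) : ZMod 13) ^ k ≠ 1 := by
  decide

theorem pid13_lt_pow_orderOf {q : ℕ} (hq : q.Prime) (hq306 : q ≤ 306) (h3 : q ≠ 3)
    (h13 : q ≠ 13) (h53 : q ≠ 53) (h79 : q ≠ 79) (h131 : q ≠ 131) (h157 : q ≠ 157) :
    306 < q ^ orderOf (q : ZMod 13) := by
  have : Fact (Nat.Prime 13) := ⟨by norm_num⟩
  have hndvd : ¬ 13 ∣ q := by
    intro h
    exact h13 ((Nat.prime_dvd_prime_iff_eq (by norm_num) hq).mp h).symm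
  rcases le_or_gt 18 q with h18 | h18
  · refine lt_pow_orderOf hndvd 2 (by nlinarith) ?_
    intro k hk0 hk2
    have hk1 : k = 1 := by omega
    subst hk1
    rw [pow_one]
    intro h1
    rcases pid13_eq_of_cast_eq_one hq hq306 h1 with h | h | h | h <;> omega
  · have hsmall : q = 2 ∨ q = 5 ∨ q = 7 ∨ q = 11 ∨ q = 17 := by
      interval_cases q <;> first | omega | (exfalso; revert hq; norm_num)
    rcases hsmall with rfl | rfl | rfl | rfl | rfl
    · exact lt_pow_orderOf hndvd 9 (by norm_num) fun k hk0 hk =>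
        pid13_pow_ne_one_two k hk hk0
    · exact lt_pow_orderOf hndvd 4 (by norm_num) fun k hk0 hk =>
        pid13_pow_ne_one_five k hk hk0
    · exact lt_pow_orderOf hndvd 3 (by norm_num) fun k hk0 hk =>
        pid13_pow_ne_one_seven k hk hk0
    · exact lt_pow_orderOf hndvd 3 (by norm_num) fun k hk0 hk =>
        pid13_pow_ne_one_eleven k hk hk0
    · exact lt_pow_orderOf hndvd 3 (by norm_num) fun k hk0 hk =>
        pid13_pow_ne_one_seventeen k hk hk0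

end Fermat.Agent.Kummer
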