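import Mathlib
import Fermat.Agent.Kummer.PIDLib

/-!
# Item 80d, `p = 13`: principal primes above `3, 53, 79, 131, 157` in `ℤ[ζ₁₃]`
-/

set_option autoImplicit false
set_option linter.style.longLine false

open NumberField Polynomial Ideal

namespace Fermat.Agent.Kummer

section

variable (K : Type*) [Field K] [NumberField K] [IsCyclotomicExtension {13} ℚ K]

/-- the relation `1 + ζ + … + ζ¹² = 0` -/
theorem pid13_zeta_sum :
    1 + zetaInt 13 K + zetaInt 13 K ^ 2 + zetaInt 13 K ^ 3 + zetaInt 13 K ^ 4 +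
      zetaInt 13 K ^ 5 + zetaInt 13 K ^ 6 + zetaInt 13 K ^ 7 + zetaInt 13 K ^ 8 +
      zetaInt 13 K ^ 9 + zetaInt 13 K ^ 10 + zetaInt 13 K ^ 11 + zetaInt 13 K ^ 12 = 0 := by
  have : Fact (Nat.Prime 13) := ⟨by norm_num⟩
  have h := minpoly.aeval ℤ (zetaInt 13 K)
  rw [minpoly_zetaInt, cyclotomic_prime] at h
  simpa [Finset.sum_range_succ] using h

/-- a prime of degree one above `q`, generated by `α`: Kummer–Dedekind with `Q = X - r`. -/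
theorem pid13_principal_of_linear (q : ℕ) [Fact q.Prime] (r : ℤ)
    (hr : ∑ i ∈ Finset.range 13, (r : ZMod q) ^ i = 0) (α β γ s t : 𝓞 K)
    (h1 : α * β = (q : 𝓞 K)) (h2 : α * γ = zetaInt 13 K - (r : 𝓞 K))
    (h3 : α = (q : 𝓞 K) * s + (zetaInt 13 K - (r : 𝓞 K)) * t) :
    ∃ P ∈ primesOver (span {(q : ℤ)}) (𝓞 K), Submodule.IsPrincipal P := by
  have : Fact (Nat.Prime 13) := ⟨by norm_num⟩
  have hmap : (X - C r : ℤ[X]).map (Int.castRingHom (ZMod q)) = X - C (r : ZMod q) := by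
    simp
  have hev : aeval (zetaInt 13 K) (X - C r : ℤ[X]) = zetaInt 13 K - (r : 𝓞 K) := by
    simp
  refine exists_isPrincipal_primesOver 13 K q (X - C r) ?_ ?_ ?_ α ⟨β, h1.symm⟩ ?_ ?_
  · rw [hmap]
    exact irreducible_X_sub_C _
  · rw [hmap]
    exact monic_X_sub_C _
  · rw [hmap, dvd_iff_isRoot, IsRoot.def, cyclotomic_prime, eval_finsetSum]
    simpa using hr
  · rw [hev]
    exact ⟨γ, h2.symm⟩
  · rw [hev, h3]
    exact Ideal.add_mem _ (Ideal.mul_mem_right _ _ (Ideal.subset_span (by simp)))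
      (Ideal.mul_mem_right _ _ (Ideal.subset_span (by simp)))

theorem pid13_sum_53 : ∑ i ∈ Finset.range 13, ((16 : ℤ) : ZMod 53) ^ i = 0 := by decide

theorem pid13_principal_53 :
    ∃ P ∈ primesOver (span {((53 : ℕ) : ℤ)}) (𝓞 K), Submodule.IsPrincipal P := by
  have : Fact (Nat.Prime 53) := ⟨by norm_num⟩
  have hz := pid13_zeta_sum K
  set z := zetaInt 13 K with hzdef
  refine pid13_principal_of_linear K 53 16 pid13_sum_53
    (1 - z + z ^ 3)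
    (25 + 10 * z + 19 * z ^ 2 + 3 * z ^ 3 + 2 * z ^ 4 - 8 * z ^ 5 - 2 * z ^ 6 + 5 * z ^ 7 + 22 * z ^ 8 + 33 * z ^ 9 + 37 * z ^ 10 + 24 * z ^ 11)
    (-8 - 3 * z - 6 * z ^ 2 - z ^ 3 - z ^ 4 + 2 * z ^ 5 - 2 * z ^ 7 - 7 * z ^ 8 - 10 * z ^ 9 - 11 * z ^ 10 - 7 * z ^ 11)
    (77) (255 + 16 * z + z ^ 2) ?_ ?_ ?_
  · push_cast
    linear_combination (-28 + 13 * z + 24 * z ^ 2) * hz
  · push_cast
    linear_combination (8 - 4 * z - 7 * z ^ 2) * hz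
  · push_cast
    ring

theorem pid13_sum_79 : ∑ i ∈ Finset.range 13, ((62 : ℤ) : ZMod 79) ^ i = 0 := by decide

theorem pid13_principal_79 :
    ∃ P ∈ primesOver (span {((79 : ℕ) : ℤ)}) (𝓞 K), Submodule.IsPrincipal P := by
  have : Fact (Nat.Prime 79) := ⟨by norm_num⟩
  have hz := pid13_zeta_sum K
  set z := zetaInt 13 K with hzdef
  refine pid13_principal_of_linear K 79 62 pid13_sum_79
    (1 - z - z ^ 4)
    (62 + 63 * z + 49 * z ^ 2 + 8 * z ^ 3 + 29 * z ^ 4 + 51 * z ^ 5 + 59 * z ^ 6 + 26 * z ^ 7 + 14 * z ^ 8 + 24 * z ^ 9 + 42 * z ^ 10 + 27 * z ^ 11)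
    (-49 - 49 * z - 38 * z ^ 2 - 6 * z ^ 3 - 23 * z ^ 4 - 40 * z ^ 5 - 46 * z ^ 6 - 20 * z ^ 7 - 11 * z ^ 8 - 19 * z ^ 9 - 33 * z ^ 10 - 21 * z ^ 11)
    (-187043) (-238329 - 3844 * z - 62 * z ^ 2 - z ^ 3) ?_ ?_ ?_
  · push_cast
    linear_combination (-17 + 18 * z - 15 * z ^ 2 - 27 * z ^ 3) * hz
  · push_cast
    linear_combination (13 - 14 * z + 12 * z ^ 2 + 21 * z ^ 3) * hz
  · push_cast
    ring

theorem pid13_sum_131 : ∑ i ∈ Finset.range 13, ((80 : ℤ) : ZMod 131) ^ i = 0 := by decide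

theorem pid13_principal_131 :
    ∃ P ∈ primesOver (span {((131 : ℕ) : ℤ)}) (𝓞 K), Submodule.IsPrincipal P := by
  have : Fact (Nat.Prime 131) := ⟨by norm_num⟩
  have hz := pid13_zeta_sum K
  set z := zetaInt 13 K with hzdef
  refine pid13_principal_of_linear K 131 80 pid13_sum_131
    (1 - z - z ^ 3)
    (111 + 78 * z + 17 * z ^ 2 + 67 * z ^ 3 + 84 * z ^ 4 + 40 * z ^ 5 + 46 * z ^ 6 + 69 * z ^ 7 + 48 * z ^ 8 + 33 * z ^ 9 + 41 * z ^ 10 + 28 * z ^ 11)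
    (-68 - 47 * z - 10 * z ^ 2 - 41 * z ^ 3 - 51 * z ^ 4 - 24 * z ^ 5 - 28 * z ^ 6 - 42 * z ^ 7 - 29 * z ^ 8 - 20 * z ^ 9 - 25 * z ^ 10 - 17 * z ^ 11)
    (-3909) (-6401 - 80 * z - z ^ 2) ?_ ?_ ?_
  · push_cast
    linear_combination (-20 - 13 * z - 28 * z ^ 2) * hz
  · push_cast
    linear_combination (12 + 8 * z + 17 * z ^ 2) * hz
  · push_cast
    ring

theorem pid13_sum_157 : ∑ i ∈ Finset.range 13, ((75 : ℤ) : ZMod 157) ^ i = 0 := by decide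

theorem pid13_principal_157 :
    ∃ P ∈ primesOver (span {((157 : ℕ) : ℤ)}) (𝓞 K), Submodule.IsPrincipal P := by
  have : Fact (Nat.Prime 157) := ⟨by norm_num⟩
  have hz := pid13_zeta_sum K
  set z := zetaInt 13 K with hzdef
  refine pid13_principal_of_linear K 157 75 pid13_sum_157
    (1 - z + z ^ 2 + z ^ 4)
    (89 + 86 * z + 42 * z ^ 2 + 77 * z ^ 3 + 67 * z ^ 4 + 25 * z ^ 5 + 37 * z ^ 6 + 56 * z ^ 7 + 73 * z ^ 8 + 113 * z ^ 9 + 124 * z ^ 10 + 76 * z ^ 11)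
    (-43 - 41 * z - 20 * z ^ 2 - 37 * z ^ 3 - 32 * z ^ 4 - 12 * z ^ 5 - 18 * z ^ 6 - 27 * z ^ 7 - 35 * z ^ 8 - 54 * z ^ 9 - 59 * z ^ 10 - 36 * z ^ 11)
    (201568) (421949 + 5626 * z + 75 * z ^ 2 + z ^ 3) ?_ ?_ ?_
  · push_cast
    linear_combination (-68 + 65 * z + 48 * z ^ 2 + 76 * z ^ 3) * hz
  · push_cast
    linear_combination (32 - 31 * z - 23 * z ^ 2 - 36 * z ^ 3) * hz
  · push_cast
    ring


theorem pid13_cubic_not_isRoot :
    ∀ x : ZMod 3, x ^ 3 - x - 1 ≠ 0 := by decide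

theorem pid13_principal_3 :
    ∃ P ∈ primesOver (span {((3 : ℕ) : ℤ)}) (𝓞 K), Submodule.IsPrincipal P := by
  have : Fact (Nat.Prime 3) := ⟨by norm_num⟩
  have : Fact (Nat.Prime 13) := ⟨by norm_num⟩
  have hz := pid13_zeta_sum K
  set z := zetaInt 13 K with hzdef
  have hmap : (X ^ 3 - X - 1 : ℤ[X]).map (Int.castRingHom (ZMod 3)) = X ^ 3 - X - 1 := by
    simp
  have hev : aeval z (X ^ 3 - X - 1 : ℤ[X]) = z ^ 3 - z - 1 := by
    simp
  have hdeg : (X ^ 3 - X - 1 : (ZMod 3)[X]).natDegree = 3 := by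
    have h1 : (X ^ 3 - X - 1 : (ZMod 3)[X]) = X ^ 3 - (X + 1) := by ring
    rw [h1, natDegree_sub_eq_left_of_natDegree_lt, natDegree_X_pow]
    rw [natDegree_X_pow]
    exact lt_of_le_of_lt (natDegree_X_add_C (1 : ZMod 3)).le (by norm_num)
  have hmonic : (X ^ 3 - X - 1 : (ZMod 3)[X]).Monic := by
    have h1 : (X ^ 3 - X - 1 : (ZMod 3)[X]) = X ^ 3 - (X + 1) := by ring
    rw [h1]
    apply Monic.sub_of_left (monic_X_pow 3)
    rw [degree_X_pow]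
    exact lt_of_le_of_lt (degree_X_add_C (1 : ZMod 3)).le (by norm_num)
  refine exists_isPrincipal_primesOver 13 K 3 (X ^ 3 - X - 1) ?_ ?_ ?_ (1 + z - z ^ 3)
    ⟨-1 - z ^ 2 - z ^ 3 - 2 * z ^ 5 - z ^ 7 - 2 * z ^ 8 + z ^ 9 - 3 * z ^ 10, ?_⟩ ?_ ?_
  · rw [hmap]
    apply irreducible_of_degree_le_three_of_not_isRoot
    · rw [hdeg]; simp
    · intro x hx
      have h2 : eval x (X ^ 3 - X - 1 : (ZMod 3)[X]) = x ^ 3 - x - 1 := by
        simp only [eval_sub, eval_pow, eval_X, eval_one]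
      exact pid13_cubic_not_isRoot x (h2 ▸ hx)
  · rw [hmap]
    exact hmonic
  · rw [hmap, cyclotomic_prime]
    refine ⟨2 + 2 * X ^ 2 + 2 * X ^ 3 + X ^ 5 + 2 * X ^ 7 + X ^ 8 + X ^ 9, ?_⟩
    have h3 : (3 : (ZMod 3)[X]) = 0 := by
      have : ((3 : ℕ) : (ZMod 3)[X]) = 0 := CharP.cast_eq_zero _ 3
      simpa using this
    simp only [Finset.sum_range_succ, Finset.sum_range_zero]
    linear_combination (1 + X + X ^ 2 + X ^ 3 + X ^ 4 + X ^ 7 + X ^ 8 + X ^ 9) * h3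
  · push_cast
    linear_combination (4 - 3 * z) * hz
  · rw [hev]
    exact ⟨-1, by ring⟩
  · rw [hev]
    have : 1 + z - z ^ 3 = (z ^ 3 - z - 1) * (-1) := by ring
    rw [this]
    exact Ideal.mul_mem_right _ _ (Ideal.subset_span (by simp))

end

end Fermat.Agent.Kummer
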