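import Mathlib
import Fermat.Agent.Kummer.PIDLib
import Fermat.Agent.Kummer.PID13Bound
import Fermat.Agent.Kummer.PID13Primes

/-!
# Item 80d, `p = 13`: `ℤ[ζ₁₃]` is a principal ideal domain

Minkowski bound `⌊M⌋ ≤ 306`; the only primes `q ≤ 306` with a prime of norm `≤ 306` above them
are `3` (norm `27`), `13` (ramified), `53, 79, 131, 157` (split); explicit generators.
-/

set_option autoImplicit false

open NumberField Polynomial Ideal Module InfinitePlace Nat Real

namespace Fermat.Agent.Kummer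

/-- **80d for `p = 13`.** -/
theorem pid_thirteen (K : Type*) [Field K] [NumberField K] [IsCyclotomicExtension {13} ℚ K] :
    IsPrincipalIdealRing (𝓞 K) := by
  have h13p : Fact (Nat.Prime 13) := ⟨by norm_num⟩
  have hgal : IsGalois ℚ K := IsCyclotomicExtension.isGalois {13} ℚ K
  have hM := pid13_floor_le K
  apply RingOfIntegers.isPrincipalIdealRing_of_isPrincipal_of_lt_or_isPrincipal_of_mem_primesOver_of_mem_Icc
  intro q hq hqprime
  have hq306 : q ≤ 306 := (Finset.mem_Icc.mp hq).2.trans hM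
  have hqf : Fact q.Prime := ⟨hqprime⟩
  by_cases h13 : q = 13
  · subst h13
    obtain ⟨⟨P, hP1, hP2⟩⟩ := (span {((13 : ℕ) : ℤ)}).nonempty_primesOver (S := 𝓞 K)
    refine ⟨P, ⟨hP1, hP2⟩, Or.inr ?_⟩
    rw [IsCyclotomicExtension.Rat.eq_span_zeta_sub_one_of_liesOver' 13 K
      (IsCyclotomicExtension.zeta_spec 13 ℚ K) P]
    exact ⟨⟨_, rfl⟩⟩
  by_cases h3 : q = 3
  · subst h3
    obtain ⟨P, hP, hprin⟩ := pid13_principal_3 K
    exact ⟨P, hP, Or.inr hprin⟩
  by_cases h53 : q = 53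
  · subst h53
    obtain ⟨P, hP, hprin⟩ := pid13_principal_53 K
    exact ⟨P, hP, Or.inr hprin⟩
  by_cases h79 : q = 79
  · subst h79
    obtain ⟨P, hP, hprin⟩ := pid13_principal_79 K
    exact ⟨P, hP, Or.inr hprin⟩
  by_cases h131 : q = 131
  · subst h131
    obtain ⟨P, hP, hprin⟩ := pid13_principal_131 K
    exact ⟨P, hP, Or.inr hprin⟩
  by_cases h157 : q = 157
  · subst h157
    obtain ⟨P, hP, hprin⟩ := pid13_principal_157 K
    exact ⟨P, hP, Or.inr hprin⟩
  · have hmax : (span {(q : ℤ)}).IsMaximal :=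
      (isPrime_of_prime (prime_span_singleton_iff.mpr
        (Nat.prime_iff_prime_int.mp hqprime))).isMaximal (by simp [hqprime.ne_zero])
    obtain ⟨⟨P, hP1, hP2⟩⟩ := (span {(q : ℤ)}).nonempty_primesOver (S := 𝓞 K)
    refine ⟨P, ⟨hP1, hP2⟩, Or.inl ?_⟩
    have hndvd : ¬ q ∣ 13 := by
      intro h
      exact h13 ((Nat.prime_dvd_prime_iff_eq hqprime (by norm_num)).mp h)
    rw [IsCyclotomicExtension.Rat.inertiaDeg_eq_of_not_dvd q K P hndvd]
    exact lt_of_le_of_lt hM (pid13_lt_pow_orderOf hqprime hq306 h3 h13 h53 h79 h131 h157)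

end Fermat.Agent.Kummer
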