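import Fermat.Agent.Kummer.PIDLib

/-!
# Item 80d: `ℤ[ζ₇]` is a PID
-/

set_option autoImplicit false
set_option linter.style.longLine false

open NumberField Polynomial Ideal Module InfinitePlace Nat Real

namespace Fermat.Agent.Kummer

theorem floor_minkowski_seven (K : Type*) [Field K] [NumberField K]
    [IsCyclotomicExtension {7} ℚ K] :
    ⌊(4 / π) ^ nrComplexPlaces K *
      ((finrank ℚ K)! / (finrank ℚ K) ^ (finrank ℚ K) * √|discr K|)⌋₊ ≤ 4 := by
  have : Fact (Nat.Prime 7) := ⟨by norm_num⟩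
  rw [IsCyclotomicExtension.Rat.discr_prime 7 K, IsCyclotomicExtension.finrank (n := 7) K
    (cyclotomic.irreducible_rat (by norm_num)),
    IsCyclotomicExtension.Rat.nrComplexPlaces_eq_totient_div_two 7,
    Nat.totient_prime (by norm_num)]
  apply Nat.le_of_lt_succ
  rw [Nat.floor_lt (by positivity)]
  have h1 : (4 / π : ℝ) < 4 / 3 := by
    apply div_lt_div_of_pos_left (by norm_num) (by norm_num) pi_gt_three
  have h2 : (4 / π : ℝ) ^ ((7 - 1) / 2) ≤ (4 / 3) ^ ((7 - 1) / 2) := by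
    apply pow_le_pow_left₀ (by positivity) h1.le
  have h3 : √|(((-1) ^ ((7 - 1) / 2) * (7 : ℕ) ^ (7 - 2) : ℤ) : ℝ)| < 130 := by
    rw [Real.sqrt_lt' (by norm_num)]
    norm_num
  refine lt_of_le_of_lt (mul_le_mul h2 (mul_le_mul_of_nonneg_left h3.le (by positivity))
    (by positivity) (by positivity)) ?_
  norm_num [Nat.factorial]

theorem pow_ne_one_seven_two : ∀ k < 3, 0 < k → ((2 : ℕ) : ZMod 7) ^ k ≠ 1 := by decide
theorem pow_ne_one_seven_three : ∀ k < 2, 0 < k → ((3 : ℕ) : ZMod 7) ^ k ≠ 1 := by decide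

/-- **`ℤ[ζ₇]` is a PID.** -/
theorem pid_seven (K : Type*) [Field K] [NumberField K] [IsCyclotomicExtension {7} ℚ K] :
    IsPrincipalIdealRing (𝓞 K) := by
  have : Fact (Nat.Prime 7) := ⟨by norm_num⟩
  have : IsGalois ℚ K := IsCyclotomicExtension.isGalois {7} ℚ K
  have hM := floor_minkowski_seven K
  refine RingOfIntegers.isPrincipalIdealRing_of_isPrincipal_of_lt_or_isPrincipal_of_mem_primesOver_of_mem_Icc
    (fun q hq hqp => ?_)
  have hq4 : q ≤ 4 := (Finset.mem_Icc.mp hq).2.trans hM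
  have : Fact q.Prime := ⟨hqp⟩
  obtain ⟨⟨P, hP1, hP2⟩⟩ := (span {(q : ℤ)}).nonempty_primesOver (S := 𝓞 K)
  refine ⟨P, ⟨hP1, hP2⟩, Or.inl ?_⟩
  have hq7 : ¬ q ∣ 7 := by
    rw [Nat.dvd_prime (by norm_num)]
    rintro (h | h)
    · exact hqp.one_lt.ne' h
    · omega
  have h7q : ¬ 7 ∣ q := fun h => by
    have := Nat.le_of_dvd hqp.pos h
    omega
  rw [IsCyclotomicExtension.Rat.inertiaDeg_eq_of_not_dvd q K P hq7]
  refine lt_of_le_of_lt hM ?_
  have hq2 := hqp.two_le
  clear hq hM hP1 hP2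
  interval_cases q
  · exact lt_pow_orderOf h7q 3 (by norm_num) fun k hk hk2 => pow_ne_one_seven_two k hk2 hk
  · exact lt_pow_orderOf h7q 2 (by norm_num) fun k hk hk2 => pow_ne_one_seven_three k hk2 hk
  · exact absurd hqp (by norm_num)

end Fermat.Agent.Kummer
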