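import Mathlib
import Fermat.Agent.Kummer.Defs

/-!
# Item 80b (Kummer's lemma): the abstract unit-structure step

If `φ : (𝓞 K)ˣ → V` is a homomorphism to an `𝔽_p`-vector space which kills the units congruent to
a rational integer mod `p`, and `(p - 1) / 2` units have linearly independent images, then
every unit congruent to an integer mod `p` is a `p`-th power (Dirichlet's unit theorem:
`(𝓞 K)ˣ` is generated by `(p - 1) / 2` elements).
-/

set_option autoImplicit false

open NumberField NumberField.Units Module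

namespace Fermat.Agent.Kummer

/-- The unit rank of the `p`-th cyclotomic field is `(p - 1) / 2 - 1`. -/
theorem rank_add_one_eq (p : ℕ) [hp : Fact p.Prime] (hp2 : p ≠ 2) (K : Type*) [Field K]
    [NumberField K] [IsCyclotomicExtension {p} ℚ K] :
    NumberField.Units.rank K + 1 = (p - 1) / 2 := by
  have h3 : 2 < p := lt_of_le_of_ne hp.out.two_le (Ne.symm hp2)
  have h1 := IsCyclotomicExtension.Rat.nrRealPlaces_eq_zero K h3
  have h2 := IsCyclotomicExtension.Rat.nrComplexPlaces_eq_totient_div_two p K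
  rw [Nat.totient_prime hp.out] at h2
  rw [NumberField.Units.rank, NumberField.InfinitePlace.card_eq_nrRealPlaces_add_nrComplexPlaces,
    h1, h2]
  omega

/-- The group of units is generated by `rank K + 1` elements. -/
theorem exists_units_generators (K : Type*) [Field K] [NumberField K] :
    ∃ gen : Fin (NumberField.Units.rank K + 1) → (𝓞 K)ˣ,
      ∀ u : (𝓞 K)ˣ, ∃ c : Fin (NumberField.Units.rank K + 1) → ℤ, u = ∏ i, gen i ^ c i := by
  classical
  obtain ⟨τ, hτ⟩ := IsCyclic.exists_generator (α := torsion K)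
  refine ⟨Fin.cons (τ : (𝓞 K)ˣ) (fundSystem K), fun u => ?_⟩
  obtain ⟨⟨t, e⟩, hu, -⟩ := exist_unique_eq_mul_prod K u
  obtain ⟨k, hk⟩ := Subgroup.mem_zpowers_iff.1 (hτ t)
  refine ⟨Fin.cons k e, ?_⟩
  rw [Fin.prod_univ_succ]
  simp only [Fin.cons_zero, Fin.cons_succ]
  rw [hu]
  congr 1
  rw [← hk]
  simp

/-- **Abstract Kummer lemma.** -/
theorem kummerLemma_of_hom (p : ℕ) [hp : Fact p.Prime] (hp2 : p ≠ 2) (K : Type*) [Field K]
    [NumberField K] [IsCyclotomicExtension {p} ℚ K] {V : Type*} [AddCommGroup V]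
    [Module (ZMod p) V] (φ : (𝓞 K)ˣ →* Multiplicative V)
    (hφ : ∀ (u : (𝓞 K)ˣ) (a : ℤ), (p : 𝓞 K) ∣ (u : 𝓞 K) - (a : 𝓞 K) → φ u = 1)
    (w : Fin ((p - 1) / 2) → (𝓞 K)ˣ)
    (hw : LinearIndependent (ZMod p) (fun i => Multiplicative.toAdd (φ (w i)))) :
    KummerLemma p K := by
  classical
  obtain ⟨gen, hgen⟩ := exists_units_generators K
  have hrank : NumberField.Units.rank K + 1 = (p - 1) / 2 := rank_add_one_eq p hp2 K
  -- additive version of φ
  let f : (𝓞 K)ˣ → V := fun u => Multiplicative.toAdd (φ u)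
  have hf : ∀ u, f u = Multiplicative.toAdd (φ u) := fun _ => rfl
  let L : (Fin (NumberField.Units.rank K + 1) → ZMod p) →ₗ[ZMod p] V :=
    Fintype.linearCombination (ZMod p) (fun i => f (gen i))
  have hL : ∀ c : Fin (NumberField.Units.rank K + 1) → ℤ, f (∏ i, gen i ^ c i) = L (fun i => (c i : ZMod p)) := by
    intro c
    simp only [hf, map_prod, map_zpow, toAdd_prod, toAdd_zpow, L,
      Fintype.linearCombination_apply]
    refine Finset.sum_congr rfl fun i _ => ?_
    rw [Int.cast_smul_eq_zsmul]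
  have hmem : ∀ u, f u ∈ LinearMap.range L := by
    intro u
    obtain ⟨c, hc⟩ := hgen u
    exact ⟨_, by rw [← hL c, ← hc]⟩
  have hli : LinearIndependent (ZMod p)
      (fun i : Fin ((p - 1) / 2) => (⟨f (w i), hmem (w i)⟩ : LinearMap.range L)) :=
    LinearIndependent.of_comp (LinearMap.range L).subtype hw
  have hcard : (p - 1) / 2 ≤ finrank (ZMod p) (LinearMap.range L) := by
    simpa using hli.fintype_card_le_finrank
  have hrn := LinearMap.finrank_range_add_finrank_ker L
  rw [Module.finrank_fin_fun] at hrn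
  have hker : finrank (ZMod p) (LinearMap.ker L) = 0 := by omega
  have hinj : Function.Injective L := by
    rw [← LinearMap.ker_eq_bot]
    exact Submodule.finrank_eq_zero.1 hker
  intro u a hdiv
  have hfu : f u = 0 := by
    rw [hf, hφ u a hdiv]
    rfl
  obtain ⟨c, hc⟩ := hgen u
  have hc0 : (fun i => (c i : ZMod p)) = 0 := by
    apply hinj
    rw [← hL c, ← hc, hfu, map_zero]
  have hdvd : ∀ i, (p : ℤ) ∣ c i := fun i =>
    (ZMod.intCast_zmod_eq_zero_iff_dvd (c i) p).1 (congrFun hc0 i)
  choose d hd using hdvd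
  refine ⟨∏ i, gen i ^ d i, ?_⟩
  rw [hc, ← Finset.prod_pow]
  refine Finset.prod_congr rfl fun i _ => ?_
  rw [hd i, mul_comm, zpow_mul, zpow_natCast]

end Fermat.Agent.Kummer
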